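/-
S41 / [IH1] (helper13): abstract ping-pong for an amalgam of two copies of one group.

Setting: a group `Gm` with two "base" maps `φ b : H →* Gm` (`b : Bool`) and two embeddings
`f b : Gm →* K` into a group `K` acting on a type `X`, agreeing on the base
(`f false (φ false h) = f true (φ true h)`), together with a ping-pong pair `U false`, `U true`
(`f b g` maps `U (!b)` into `U b` for every non-base `g`), and an index ≥ 3 condition.

Result: every pair of homs `ψ b : Gm →* M` (`M` commutative) that agree on the base extends to a hom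
on the subgroup of `K` generated by the two images.  No trees, no Bass–Serre theory.
-/
import Mathlib

set_option autoImplicit false

namespace Fermat.Agent.S41.IH1.PingPong

variable {Gm H K X M : Type*} [Group Gm] [Group H] [Group K] [MulAction K X] [CommGroup M]

/-- evaluation of a word (list of letters `(side, element)`) in `K` -/
def ev (f : Bool → Gm →* K) (l : List (Bool × Gm)) : K := (l.map fun a => f a.1 a.2).prod

/-- value of a word under a pair of homs into a commutative group -/
def val (ψ : Bool → Gm →* M) (l : List (Bool × Gm)) : M := (l.map fun a => ψ a.1 a.2).prod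

@[simp] theorem ev_nil (f : Bool → Gm →* K) : ev f [] = 1 := rfl
@[simp] theorem ev_cons (f : Bool → Gm →* K) (a : Bool × Gm) (l : List (Bool × Gm)) :
    ev f (a :: l) = f a.1 a.2 * ev f l := by simp [ev]
@[simp] theorem ev_append (f : Bool → Gm →* K) (l l' : List (Bool × Gm)) :
    ev f (l ++ l') = ev f l * ev f l' := by simp [ev]
@[simp] theorem val_nil (ψ : Bool → Gm →* M) : val ψ [] = 1 := rfl
@[simp] theorem val_cons (ψ : Bool → Gm →* M) (a : Bool × Gm) (l : List (Bool × Gm)) :
    val ψ (a :: l) = ψ a.1 a.2 * val ψ l := by simp [val]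
@[simp] theorem val_append (ψ : Bool → Gm →* M) (l l' : List (Bool × Gm)) :
    val ψ (l ++ l') = val ψ l * val ψ l' := by simp [val]

/-- the formal inverse of a word -/
def inv (l : List (Bool × Gm)) : List (Bool × Gm) := (l.map fun a => (a.1, a.2⁻¹)).reverse

theorem ev_inv (f : Bool → Gm →* K) (l : List (Bool × Gm)) : ev f (inv l) = (ev f l)⁻¹ := by
  induction l with
  | nil => simp [inv]
  | cons a l ih =>
    have : inv (a :: l) = inv l ++ [(a.1, a.2⁻¹)] := by simp [inv]
    rw [this, ev_append, ih, ev_cons, ev_cons, ev_nil, mul_one, mul_inv_rev, map_inv]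

theorem val_inv (ψ : Bool → Gm →* M) (l : List (Bool × Gm)) : val ψ (inv l) = (val ψ l)⁻¹ := by
  induction l with
  | nil => simp [inv]
  | cons a l ih =>
    have : inv (a :: l) = inv l ++ [(a.1, a.2⁻¹)] := by simp [inv]
    rw [this, val_append, ih, val_cons, val_cons, val_nil, mul_one, mul_inv_rev, map_inv, mul_comm]

/-- `Alt φ b c l`: `l` is a nonempty alternating word of NON-BASE letters, first side `b`,
last side `c`. -/
inductive Alt (φ : Bool → H →* Gm) : Bool → Bool → List (Bool × Gm) → Prop
  | single (b : Bool) (g : Gm) (hg : g ∉ (φ b).range) : Alt φ b b [(b, g)]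
  | cons (b : Bool) (g : Gm) (hg : g ∉ (φ b).range) {c : Bool} {l : List (Bool × Gm)}
      (h : Alt φ (!b) c l) : Alt φ b c ((b, g) :: l)

/-- The hypotheses of the ping-pong. -/
structure Data (φ : Bool → H →* Gm) (f : Bool → Gm →* K) (U : Bool → Set X) : Prop where
  comp : ∀ h, f false (φ false h) = f true (φ true h)
  inj : ∀ b, Function.Injective (f b)
  disj : Disjoint (U false) (U true)
  ne : ∀ b, (U b).Nonempty
  pp : ∀ (b : Bool) (g : Gm), g ∉ (φ b).range → ∀ x ∈ U (!b), f b g • x ∈ U b
  idx : ∀ (b : Bool) (g : Gm), ∃ s : Gm, s ∉ (φ b).range ∧ s * g ∉ (φ b).range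

variable {φ : Bool → H →* Gm} {f : Bool → Gm →* K} {U : Bool → Set X}

theorem Data.comp' (D : Data φ f U) (b b' : Bool) (h : H) : f b (φ b h) = f b' (φ b' h) := by
  cases b <;> cases b'
  · rfl
  · exact D.comp h
  · exact (D.comp h).symm
  · rfl

theorem Data.disj' (D : Data φ f U) (b : Bool) {x : X} (h1 : x ∈ U b) (h2 : x ∈ U (!b)) : False := by
  cases b
  · exact Set.disjoint_left.mp D.disj h1 h2
  · exact Set.disjoint_left.mp D.disj h2 h1

theorem Alt.pingpong (D : Data φ f U) {b c : Bool} {l : List (Bool × Gm)} (h : Alt φ b c l) :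
    ∀ x ∈ U (!c), ev f l • x ∈ U b := by
  induction h with
  | single b g hg =>
    intro x hx
    simpa [ev] using D.pp b g hg x hx
  | cons b g hg h ih =>
    intro x hx
    rw [ev_cons, mul_smul]
    refine D.pp b g hg _ (ih x hx)

theorem Alt.snoc {b c : Bool} {l : List (Bool × Gm)} (h : Alt φ b c l) (g : Gm)
    (hg : g ∉ (φ (!c)).range) : Alt φ b (!c) (l ++ [((!c), g)]) := by
  induction h with
  | single b g0 hg0 =>
    exact Alt.cons b g0 hg0 (Alt.single (!b) g hg)
  | cons b g0 hg0 h ih =>
    exact Alt.cons b g0 hg0 (ih hg)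

theorem Alt.ne_nil {b c : Bool} {l : List (Bool × Gm)} (h : Alt φ b c l) : l ≠ [] := by
  cases h <;> simp

/-- words with equal first and last side never evaluate to `1` -/
theorem Alt.ev_ne_one_same (D : Data φ f U) {b : Bool} {l : List (Bool × Gm)} (h : Alt φ b b l) :
    ev f l ≠ 1 := by
  intro h1
  obtain ⟨x, hx⟩ := D.ne (!b)
  have := h.pingpong D x hx
  rw [h1, one_smul] at this
  exact D.disj' b this hx

theorem not_mem_range_inv {b : Bool} {s : Gm} (hs : s ∉ (φ b).range) : s⁻¹ ∉ (φ b).range :=
  fun h => hs (by simpa using (φ b).range.inv_mem h)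

theorem Alt.exists_cons_of_ne {b c : Bool} {l : List (Bool × Gm)} (h : Alt φ b c l) (hbc : c ≠ b) :
    ∃ g t, g ∉ (φ b).range ∧ l = (b, g) :: t ∧ Alt φ (!b) c t := by
  cases h with
  | single b g hg => exact absurd rfl hbc
  | cons b g hg h' => exact ⟨g, _, hg, rfl, h'⟩

/-- no nonempty alternating non-base word evaluates to `1` -/
theorem Alt.ev_ne_one (D : Data φ f U) {b c : Bool} {l : List (Bool × Gm)} (h : Alt φ b c l) :
    ev f l ≠ 1 := by
  by_cases hbc : c = b
  · subst hbc
    exact h.ev_ne_one_same D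
  · have hc : (!c) = b := by cases b <;> cases c <;> simp_all
    obtain ⟨g, t, hg, rfl, h'⟩ := h.exists_cons_of_ne hbc
    intro h1
    obtain ⟨s, hs, hsg⟩ := D.idx b g
    have hnew : Alt φ b (!c) (((b, s * g) :: t) ++ [((!c), s⁻¹)]) :=
      (Alt.cons b (s * g) hsg h').snoc s⁻¹ (by rw [hc]; exact not_mem_range_inv hs)
    rw [hc] at hnew
    apply hnew.ev_ne_one_same D
    rw [ev_cons] at h1
    rw [ev_append, ev_cons]
    simp only [ev_cons, ev_nil, mul_one, map_mul, map_inv]
    rw [mul_assoc (f b s), h1, mul_one, mul_inv_cancel]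

/-- normal forms: empty, alternating non-base, or a single base letter -/
def NF (φ : Bool → H →* Gm) (l : List (Bool × Gm)) : Prop :=
  l = [] ∨ (∃ b c, Alt φ b c l) ∨ ∃ b h, l = [(b, φ b h)]

section Normalise

variable (ψ : Bool → Gm →* M) (hψ : ∀ h, ψ false (φ false h) = ψ true (φ true h))

include hψ in
theorem hψ' (b b' : Bool) (h : H) : ψ b (φ b h) = ψ b' (φ b' h) := by
  cases b <;> cases b'
  · rfl
  · exact hψ h
  · exact (hψ h).symm
  · rfl

theorem base_mul_not_mem {b : Bool} {h : H} {g : Gm} (hg : g ∉ (φ b).range) :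
    φ b h * g ∉ (φ b).range := by
  intro hm
  apply hg
  have := (φ b).range.mul_mem ((φ b).range.inv_mem ⟨h, rfl⟩) hm
  simpa using this

include hψ in
/-- prepending one letter to a normal form gives (up to `ev`, `val`) a normal form -/
theorem exists_nf_cons (D : Data φ f U) (a : Bool × Gm) {t : List (Bool × Gm)} (ht : NF φ t) :
    ∃ l, ev f l = ev f (a :: t) ∧ val ψ l = val ψ (a :: t) ∧ NF φ l := by
  obtain ⟨b, g⟩ := a
  rcases ht with rfl | ⟨b', c, halt⟩ | ⟨b', h', rfl⟩
  · -- t = []
    by_cases hg : g ∈ (φ b).range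
    · obtain ⟨h, rfl⟩ := hg
      exact ⟨[(b, φ b h)], rfl, rfl, Or.inr (Or.inr ⟨b, h, rfl⟩)⟩
    · exact ⟨[(b, g)], rfl, rfl, Or.inr (Or.inl ⟨b, b, Alt.single b g hg⟩)⟩
  · -- t alternating
    by_cases hg : g ∈ (φ b).range
    · -- base letter: absorb into the head of t
      obtain ⟨h, rfl⟩ := hg
      cases halt with
      | single b' g' hg' =>
        refine ⟨[(b', φ b' h * g')], ?_, ?_, Or.inr (Or.inl ⟨b', b', Alt.single _ _ (base_mul_not_mem hg')⟩)⟩
        · simp [D.comp' b b' h]
        · simp [hψ' ψ hψ b b' h]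
      | cons b' g' hg' h'' =>
        refine ⟨(b', φ b' h * g') :: _, ?_, ?_, Or.inr (Or.inl ⟨b', c, Alt.cons _ _ (base_mul_not_mem hg') h''⟩)⟩
        · simp [D.comp' b b' h, mul_assoc]
        · simp [hψ' ψ hψ b b' h, mul_assoc]
    · by_cases hbb : b' = !b
      · subst hbb
        exact ⟨(b, g) :: _, rfl, rfl, Or.inr (Or.inl ⟨b, c, Alt.cons b g hg halt⟩)⟩
      · have hb : b' = b := by cases b <;> cases b' <;> simp_all
        subst hb
        cases halt with
        | single _ g' hg' =>
          by_cases hm : g * g' ∈ (φ b').range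
          · obtain ⟨h, hh⟩ := hm
            refine ⟨[(b', φ b' h)], ?_, ?_, Or.inr (Or.inr ⟨b', h, rfl⟩)⟩
            · simp [hh]
            · simp [hh]
          · refine ⟨[(b', g * g')], ?_, ?_, Or.inr (Or.inl ⟨b', b', Alt.single _ _ hm⟩)⟩
            · simp
            · simp
        | cons _ g' hg' h'' =>
          by_cases hm : g * g' ∈ (φ b').range
          · obtain ⟨h, hh⟩ := hm
            -- the merged letter is a base letter: absorb it into the next one
            cases h'' with
            | single _ g'' hg'' =>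
              refine ⟨[((!b'), φ (!b') h * g'')], ?_, ?_,
                Or.inr (Or.inl ⟨!b', !b', Alt.single _ _ (base_mul_not_mem hg'')⟩)⟩
              · simp only [ev_cons, ev_nil, mul_one, map_mul]
                rw [← D.comp' b' (!b') h, hh, map_mul, mul_assoc]
              · simp only [val_cons, val_nil, mul_one, map_mul]
                rw [← hψ' ψ hψ b' (!b') h, hh, map_mul, mul_assoc]
            | cons _ g'' hg'' h''' =>
              refine ⟨((!b'), φ (!b') h * g'') :: _, ?_, ?_,
                Or.inr (Or.inl ⟨!b', c, Alt.cons _ _ (base_mul_not_mem hg'') h'''⟩)⟩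
              · simp only [ev_cons, map_mul]
                rw [← D.comp' b' (!b') h, hh, map_mul]
                simp only [mul_assoc]
              · simp only [val_cons, map_mul]
                rw [← hψ' ψ hψ b' (!b') h, hh, map_mul]
                simp only [mul_assoc]
          · refine ⟨(b', g * g') :: _, ?_, ?_, Or.inr (Or.inl ⟨b', c, Alt.cons _ _ hm h''⟩)⟩
            · simp [mul_assoc]
            · simp [mul_assoc]
  · -- t = single base letter
    by_cases hm : g * φ b h' ∈ (φ b).range
    · obtain ⟨h, hh⟩ := hm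
      refine ⟨[(b, φ b h)], ?_, ?_, Or.inr (Or.inr ⟨b, h, rfl⟩)⟩
      · simp [hh, D.comp' b' b h']
      · simp [hh, hψ' ψ hψ b' b h']
    · refine ⟨[(b, g * φ b h')], ?_, ?_, Or.inr (Or.inl ⟨b, b, Alt.single _ _ hm⟩)⟩
      · simp [D.comp' b' b h']
      · simp [hψ' ψ hψ b' b h']

include hψ in
theorem exists_nf (D : Data φ f U) (l : List (Bool × Gm)) :
    ∃ l', ev f l' = ev f l ∧ val ψ l' = val ψ l ∧ NF φ l' := by
  induction l with
  | nil => exact ⟨[], rfl, rfl, Or.inl rfl⟩
  | cons a t ih =>
    obtain ⟨t', h1, h2, h3⟩ := ih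
    obtain ⟨l', h1', h2', h3'⟩ := exists_nf_cons ψ hψ D a h3
    refine ⟨l', ?_, ?_, h3'⟩
    · rw [h1', ev_cons, ev_cons, h1]
    · rw [h2', val_cons, val_cons, h2]

include hψ in
/-- **Key lemma**: a word evaluating to `1` in `K` has value `1`. -/
theorem val_eq_one_of_ev_eq_one (D : Data φ f U) (l : List (Bool × Gm)) (h : ev f l = 1) :
    val ψ l = 1 := by
  obtain ⟨l', h1, h2, h3⟩ := exists_nf ψ hψ D l
  rw [← h2]
  rcases h3 with rfl | ⟨b, c, halt⟩ | ⟨b, h', rfl⟩
  · rfl
  · exact absurd (h1.trans h) (halt.ev_ne_one D)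
  · have : f b (φ b h') = 1 := by simpa using h1.trans h
    have h0 : φ b h' = 1 := D.inj b (by rw [this, map_one])
    simp [h0]

include hψ in
theorem val_eq_of_ev_eq (D : Data φ f U) (l l' : List (Bool × Gm)) (h : ev f l = ev f l') :
    val ψ l = val ψ l' := by
  have := val_eq_one_of_ev_eq_one ψ hψ D (l ++ inv l') (by rw [ev_append, ev_inv, h, mul_inv_cancel])
  rw [val_append, val_inv, mul_inv_eq_one] at this
  exact this

end Normalise

/-- the subgroup of `K` generated by the two images -/
def span (f : Bool → Gm →* K) : Subgroup K := (f false).range ⊔ (f true).range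

/-- the set of evaluations of words is a subgroup -/
def evSubgroup (f : Bool → Gm →* K) : Subgroup K where
  carrier := {x | ∃ l, ev f l = x}
  one_mem' := ⟨[], rfl⟩
  mul_mem' := by
    rintro _ _ ⟨l, rfl⟩ ⟨l', rfl⟩
    exact ⟨l ++ l', ev_append f l l'⟩
  inv_mem' := by
    rintro _ ⟨l, rfl⟩
    exact ⟨inv l, ev_inv f l⟩

theorem mem_span_iff (f : Bool → Gm →* K) (x : K) : x ∈ span f ↔ ∃ l, ev f l = x := by
  constructor
  · intro hx
    have hle : span f ≤ evSubgroup f := by
      refine sup_le ?_ ?_
      · rintro _ ⟨g, rfl⟩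
        exact ⟨[(false, g)], by simp⟩
      · rintro _ ⟨g, rfl⟩
        exact ⟨[(true, g)], by simp⟩
    exact hle hx
  · rintro ⟨l, rfl⟩
    induction l with
    | nil => simp
    | cons a l ih =>
      rw [ev_cons]
      refine (span f).mul_mem ?_ ih
      obtain ⟨b, g⟩ := a
      cases b
      · exact (le_sup_left : (f false).range ≤ span f) ⟨g, rfl⟩
      · exact (le_sup_right : (f true).range ≤ span f) ⟨g, rfl⟩

theorem map_mem_span (f : Bool → Gm →* K) (b : Bool) (g : Gm) : f b g ∈ span f :=
  (mem_span_iff f _).2 ⟨[(b, g)], by simp⟩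

/-- **Amalgam extension (ping-pong form).**  Under the ping-pong hypotheses `D`, every pair of
homs `ψ false`, `ψ true` into a commutative group that agree on the base extends to a hom on the
subgroup generated by the two images. -/
theorem exists_hom (D : Data φ f U) (ψ : Bool → Gm →* M)
    (hψ : ∀ h, ψ false (φ false h) = ψ true (φ true h)) :
    ∃ Ψ : ↥(span f) →* M, ∀ (b : Bool) (g : Gm), Ψ ⟨f b g, map_mem_span f b g⟩ = ψ b g := by
  classical
  have hex : ∀ x : ↥(span f), ∃ l, ev f l = (x : K) := fun x => (mem_span_iff f x).1 x.2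
  let w : ↥(span f) → List (Bool × Gm) := fun x => Classical.choose (hex x)
  have hw : ∀ x, ev f (w x) = (x : K) := fun x => Classical.choose_spec (hex x)
  refine ⟨{ toFun := fun x => val ψ (w x), map_one' := ?_, map_mul' := ?_ }, ?_⟩
  · exact val_eq_one_of_ev_eq_one ψ hψ D _ (by rw [hw]; rfl)
  · intro x y
    rw [← val_append]
    exact val_eq_of_ev_eq ψ hψ D _ _ (by rw [ev_append, hw, hw, hw]; rfl)
  · intro b g
    show val ψ (w _) = ψ b g
    have := val_eq_of_ev_eq ψ hψ D (w ⟨f b g, map_mem_span f b g⟩) [(b, g)] (by rw [hw]; simp)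
    simpa using this

end Fermat.Agent.S41.IH1.PingPong
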