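/-
S41 / [IH1] (helper13): the concrete ping-pong data for
`Γ0(N)[1/q] = Γ0(N) *_{Γ0(Nq)} η⁻¹ Γ0(N) η` inside `SL(2,ℚ)` (`η = diag(q,1)`).

* `castΓ N : Γ0(N) →* SL(2,ℚ)` (entrywise cast), `conjΓ N q γ = η⁻¹ (castΓ γ) η`;
* `incl N q`, `conjEta N q : Γ0(Nq) →* Γ0(N)` (`δ ↦ δ`, `δ ↦ η δ η⁻¹`);
* the action of `SL(2,ℚ)` on `Vec = ℚ × ℚ` and the two ping-pong sets defined by the `q`-adic norm;
* `pingPongData` : the hypotheses of `PingPong.exists_hom`.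
-/
import Mathlib
import Fermat.Agent.S41.IH1.PingPong

set_option autoImplicit false

open Matrix CongruenceSubgroup
open scoped MatrixGroups

namespace Fermat.Agent.S41.IH1

/-! ### entries of `SL(2,R)` -/

section Entries

variable {R : Type*} [CommRing R]

theorem sl_ext {x y : SL(2, R)} (h00 : x 0 0 = y 0 0) (h01 : x 0 1 = y 0 1)
    (h10 : x 1 0 = y 1 0) (h11 : x 1 1 = y 1 1) : x = y := by
  apply Matrix.SpecialLinearGroup.ext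
  intro i j
  fin_cases i <;> fin_cases j <;> assumption

theorem sl_det (x : SL(2, R)) : x 0 0 * x 1 1 - x 0 1 * x 1 0 = 1 := by
  have := x.2
  rw [Matrix.det_fin_two] at this
  exact this

theorem sl_mul_00 (x y : SL(2, R)) : (x * y) 0 0 = x 0 0 * y 0 0 + x 0 1 * y 1 0 := by
  simp [Matrix.SpecialLinearGroup.coe_mul, Matrix.mul_apply, Fin.sum_univ_two]
theorem sl_mul_01 (x y : SL(2, R)) : (x * y) 0 1 = x 0 0 * y 0 1 + x 0 1 * y 1 1 := by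
  simp [Matrix.SpecialLinearGroup.coe_mul, Matrix.mul_apply, Fin.sum_univ_two]
theorem sl_mul_10 (x y : SL(2, R)) : (x * y) 1 0 = x 1 0 * y 0 0 + x 1 1 * y 1 0 := by
  simp [Matrix.SpecialLinearGroup.coe_mul, Matrix.mul_apply, Fin.sum_univ_two]
theorem sl_mul_11 (x y : SL(2, R)) : (x * y) 1 1 = x 1 0 * y 0 1 + x 1 1 * y 1 1 := by
  simp [Matrix.SpecialLinearGroup.coe_mul, Matrix.mul_apply, Fin.sum_univ_two]

theorem sl_inv_00 (x : SL(2, R)) : (x⁻¹) 0 0 = x 1 1 := by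
  rw [Matrix.SpecialLinearGroup.SL2_inv_expl]; rfl
theorem sl_inv_01 (x : SL(2, R)) : (x⁻¹) 0 1 = - x 0 1 := by
  rw [Matrix.SpecialLinearGroup.SL2_inv_expl]; rfl
theorem sl_inv_10 (x : SL(2, R)) : (x⁻¹) 1 0 = - x 1 0 := by
  rw [Matrix.SpecialLinearGroup.SL2_inv_expl]; rfl
theorem sl_inv_11 (x : SL(2, R)) : (x⁻¹) 1 1 = x 0 0 := by
  rw [Matrix.SpecialLinearGroup.SL2_inv_expl]; rfl

theorem sl_one_00 : (1 : SL(2, R)) 0 0 = 1 := by simp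
theorem sl_one_01 : (1 : SL(2, R)) 0 1 = 0 := by simp
theorem sl_one_10 : (1 : SL(2, R)) 1 0 = 0 := by simp
theorem sl_one_11 : (1 : SL(2, R)) 1 1 = 1 := by simp

end Entries

/-! ### the two embeddings of `Γ0(N)` into `SL(2,ℚ)` -/

/-- entrywise cast `Γ0(N) → SL(2,ℚ)` -/
def castΓ (N : ℕ) : ↥(Gamma0 N) →* SL(2, ℚ) :=
  (Matrix.SpecialLinearGroup.map (Int.castRingHom ℚ)).comp (Gamma0 N).subtype

@[simp] theorem castΓ_apply (N : ℕ) (γ : ↥(Gamma0 N)) (i j : Fin 2) :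
    castΓ N γ i j = (((γ : SL(2, ℤ)) i j : ℤ) : ℚ) := rfl

theorem castΓ_injective (N : ℕ) : Function.Injective (castΓ N) := by
  intro x y h
  apply Subtype.ext
  apply Matrix.SpecialLinearGroup.ext
  intro i j
  have := congrArg (fun g : SL(2, ℚ) => g i j) h
  simpa using this

/-- conjugation by `diag(t,1)⁻¹` on `SL(2,ℚ)`: `[[a,b],[c,d]] ↦ [[a,b/t],[t c,d]]` (function) -/
def conjDiagFun (t : ℚ) (ht : t ≠ 0) (g : SL(2, ℚ)) : SL(2, ℚ) :=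
  ⟨!![g 0 0, g 0 1 / t; t * g 1 0, g 1 1], by
    rw [Matrix.det_fin_two_of]
    have := sl_det g
    field_simp
    linarith⟩

theorem conjDiagFun_00 (t : ℚ) (ht : t ≠ 0) (g : SL(2, ℚ)) : conjDiagFun t ht g 0 0 = g 0 0 := rfl
theorem conjDiagFun_01 (t : ℚ) (ht : t ≠ 0) (g : SL(2, ℚ)) :
    conjDiagFun t ht g 0 1 = g 0 1 / t := rfl
theorem conjDiagFun_10 (t : ℚ) (ht : t ≠ 0) (g : SL(2, ℚ)) :
    conjDiagFun t ht g 1 0 = t * g 1 0 := rfl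
theorem conjDiagFun_11 (t : ℚ) (ht : t ≠ 0) (g : SL(2, ℚ)) : conjDiagFun t ht g 1 1 = g 1 1 := rfl

/-- conjugation by `diag(t,1)⁻¹` on `SL(2,ℚ)`: `[[a,b],[c,d]] ↦ [[a,b/t],[t c,d]]` -/
def conjDiag (t : ℚ) (ht : t ≠ 0) : SL(2, ℚ) →* SL(2, ℚ) where
  toFun := conjDiagFun t ht
  map_one' := by
    apply sl_ext <;>
      simp only [conjDiagFun_00, conjDiagFun_01, conjDiagFun_10, conjDiagFun_11, sl_one_00,
        sl_one_01, sl_one_10, sl_one_11] <;> simp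
  map_mul' g h := by
    apply sl_ext <;>
      simp only [conjDiagFun_00, conjDiagFun_01, conjDiagFun_10, conjDiagFun_11, sl_mul_00,
        sl_mul_01, sl_mul_10, sl_mul_11] <;> field_simp

@[simp] theorem conjDiag_00 (t : ℚ) (ht : t ≠ 0) (g : SL(2, ℚ)) : conjDiag t ht g 0 0 = g 0 0 := rfl
@[simp] theorem conjDiag_01 (t : ℚ) (ht : t ≠ 0) (g : SL(2, ℚ)) :
    conjDiag t ht g 0 1 = g 0 1 / t := rfl
@[simp] theorem conjDiag_10 (t : ℚ) (ht : t ≠ 0) (g : SL(2, ℚ)) :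
    conjDiag t ht g 1 0 = t * g 1 0 := rfl
@[simp] theorem conjDiag_11 (t : ℚ) (ht : t ≠ 0) (g : SL(2, ℚ)) : conjDiag t ht g 1 1 = g 1 1 := rfl

theorem conjDiag_injective (t : ℚ) (ht : t ≠ 0) : Function.Injective (conjDiag t ht) := by
  intro x y h
  have e00 := congrArg (fun g : SL(2, ℚ) => g 0 0) h
  have e01 := congrArg (fun g : SL(2, ℚ) => g 0 1) h
  have e10 := congrArg (fun g : SL(2, ℚ) => g 1 0) h
  have e11 := congrArg (fun g : SL(2, ℚ) => g 1 1) h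
  simp only [conjDiag_00, conjDiag_01, conjDiag_10, conjDiag_11] at e00 e01 e10 e11
  apply sl_ext e00 _ _ e11
  · field_simp at e01
    exact e01
  · exact mul_left_cancel₀ ht e10

/-! ### the two maps `Γ0(Nq) → Γ0(N)` -/

theorem mem_Gamma0_iff_dvd {N : ℕ} {A : SL(2, ℤ)} : A ∈ Gamma0 N ↔ (N : ℤ) ∣ A 1 0 := by
  rw [Gamma0_mem, ZMod.intCast_zmod_eq_zero_iff_dvd]

theorem Gamma0_mul_le (N q : ℕ) : Gamma0 (N * q) ≤ Gamma0 N := by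
  intro A hA
  rw [mem_Gamma0_iff_dvd] at hA ⊢
  exact dvd_trans ⟨(q : ℤ), by push_cast; ring⟩ hA

/-- the inclusion `Γ0(Nq) → Γ0(N)` -/
def incl (N q : ℕ) : ↥(Gamma0 (N * q)) →* ↥(Gamma0 N) := Subgroup.inclusion (Gamma0_mul_le N q)

@[simp] theorem coe_incl (N q : ℕ) (δ : ↥(Gamma0 (N * q))) :
    ((incl N q δ : ↥(Gamma0 N)) : SL(2, ℤ)) = (δ : SL(2, ℤ)) := rfl

theorem dvd_of_mem_Gamma0_mul (N q : ℕ) (δ : ↥(Gamma0 (N * q))) :
    (q : ℤ) ∣ (δ : SL(2, ℤ)) 1 0 :=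
  dvd_trans ⟨(N : ℤ), by push_cast; ring⟩ (mem_Gamma0_iff_dvd.1 δ.2)

theorem dvd_of_mem_Gamma0_mul' (N q : ℕ) (δ : ↥(Gamma0 (N * q))) :
    ((N * q : ℕ) : ℤ) ∣ (δ : SL(2, ℤ)) 1 0 := mem_Gamma0_iff_dvd.1 δ.2

/-- `δ ↦ η δ η⁻¹ = [[a, q b],[c/q, d]]` as an element of `SL(2,ℤ)` -/
def conjEtaSL (N q : ℕ) (δ : ↥(Gamma0 (N * q))) : SL(2, ℤ) :=
  ⟨!![(δ : SL(2, ℤ)) 0 0, q * (δ : SL(2, ℤ)) 0 1; (δ : SL(2, ℤ)) 1 0 / q, (δ : SL(2, ℤ)) 1 1], by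
    rw [Matrix.det_fin_two_of]
    have h1 := sl_det (δ : SL(2, ℤ))
    have h2 : (q : ℤ) * ((δ : SL(2, ℤ)) 1 0 / q) = (δ : SL(2, ℤ)) 1 0 :=
      Int.mul_ediv_cancel' (dvd_of_mem_Gamma0_mul N q δ)
    calc (δ : SL(2, ℤ)) 0 0 * (δ : SL(2, ℤ)) 1 1 - q * (δ : SL(2, ℤ)) 0 1 * ((δ : SL(2, ℤ)) 1 0 / q)
        = (δ : SL(2, ℤ)) 0 0 * (δ : SL(2, ℤ)) 1 1
          - (δ : SL(2, ℤ)) 0 1 * ((q : ℤ) * ((δ : SL(2, ℤ)) 1 0 / q)) := by ring
      _ = 1 := by rw [h2, h1]⟩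

theorem conjEtaSL_00 (N q : ℕ) (δ : ↥(Gamma0 (N * q))) :
    conjEtaSL N q δ 0 0 = (δ : SL(2, ℤ)) 0 0 := rfl
theorem conjEtaSL_01 (N q : ℕ) (δ : ↥(Gamma0 (N * q))) :
    conjEtaSL N q δ 0 1 = q * (δ : SL(2, ℤ)) 0 1 := rfl
theorem conjEtaSL_10 (N q : ℕ) (δ : ↥(Gamma0 (N * q))) :
    conjEtaSL N q δ 1 0 = (δ : SL(2, ℤ)) 1 0 / q := rfl
theorem conjEtaSL_11 (N q : ℕ) (δ : ↥(Gamma0 (N * q))) :
    conjEtaSL N q δ 1 1 = (δ : SL(2, ℤ)) 1 1 := rfl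

theorem q_mul_conjEtaSL_10 (N q : ℕ) (δ : ↥(Gamma0 (N * q))) :
    (q : ℤ) * conjEtaSL N q δ 1 0 = (δ : SL(2, ℤ)) 1 0 := by
  rw [conjEtaSL_10]
  exact Int.mul_ediv_cancel' (dvd_of_mem_Gamma0_mul N q δ)

theorem conjEtaSL_mem (N q : ℕ) [NeZero q] (δ : ↥(Gamma0 (N * q))) : conjEtaSL N q δ ∈ Gamma0 N := by
  rw [mem_Gamma0_iff_dvd]
  obtain ⟨k, hk⟩ := dvd_of_mem_Gamma0_mul' N q δ
  have h2 := q_mul_conjEtaSL_10 N q δ
  rw [hk] at h2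
  have hq : (q : ℤ) ≠ 0 := by exact_mod_cast NeZero.ne q
  refine ⟨k, mul_left_cancel₀ hq ?_⟩
  rw [h2]
  push_cast
  ring

/-- entrywise cast `SL(2,ℤ) → SL(2,ℚ)` -/
def castSL : SL(2, ℤ) →* SL(2, ℚ) := Matrix.SpecialLinearGroup.map (Int.castRingHom ℚ)

@[simp] theorem castSL_apply (g : SL(2, ℤ)) (i j : Fin 2) : castSL g i j = ((g i j : ℤ) : ℚ) := rfl

theorem castSL_injective : Function.Injective castSL := by
  intro x y h
  apply Matrix.SpecialLinearGroup.ext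
  intro i j
  have := congrArg (fun g : SL(2, ℚ) => g i j) h
  simpa using this

theorem castΓ_eq (N : ℕ) (γ : ↥(Gamma0 N)) : castΓ N γ = castSL (γ : SL(2, ℤ)) := rfl

theorem qinv_ne_zero (q : ℕ) [NeZero q] : ((q : ℚ)⁻¹) ≠ 0 :=
  inv_ne_zero (by exact_mod_cast NeZero.ne q)

theorem qcast_ne_zero (q : ℕ) [NeZero q] : (q : ℚ) ≠ 0 := by exact_mod_cast NeZero.ne q

theorem castSL_conjEtaSL (N q : ℕ) [NeZero q] (δ : ↥(Gamma0 (N * q))) :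
    castSL (conjEtaSL N q δ) = conjDiag ((q : ℚ)⁻¹) (qinv_ne_zero q) (castSL (δ : SL(2, ℤ))) := by
  have hq := qcast_ne_zero q
  apply sl_ext
  · simp [conjEtaSL_00]
  · simp [conjEtaSL_01, mul_comm]
  · simp only [castSL_apply, conjDiag_10]
    rw [← q_mul_conjEtaSL_10 N q δ]
    push_cast
    field_simp
  · simp [conjEtaSL_11]

/-- `δ ↦ η δ η⁻¹`, `Γ0(Nq) → Γ0(N)` -/
def conjEta (N q : ℕ) [NeZero q] : ↥(Gamma0 (N * q)) →* ↥(Gamma0 N) where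
  toFun δ := ⟨conjEtaSL N q δ, conjEtaSL_mem N q δ⟩
  map_one' := by
    apply Subtype.ext
    apply castSL_injective
    show castSL (conjEtaSL N q 1) = castSL 1
    rw [castSL_conjEtaSL]
    simp
  map_mul' δ δ' := by
    apply Subtype.ext
    apply castSL_injective
    show castSL (conjEtaSL N q (δ * δ')) = castSL (conjEtaSL N q δ * conjEtaSL N q δ')
    rw [map_mul, castSL_conjEtaSL, castSL_conjEtaSL, castSL_conjEtaSL, ← map_mul, ← map_mul]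
    rfl

@[simp] theorem coe_conjEta (N q : ℕ) [NeZero q] (δ : ↥(Gamma0 (N * q))) :
    ((conjEta N q δ : ↥(Gamma0 N)) : SL(2, ℤ)) = conjEtaSL N q δ := rfl

/-- `γ ↦ η⁻¹ γ η = [[a, b/q],[q c, d]]`, `Γ0(N) → SL(2,ℚ)` -/
def conjΓ (N q : ℕ) [NeZero q] : ↥(Gamma0 N) →* SL(2, ℚ) :=
  (conjDiag (q : ℚ) (qcast_ne_zero q)).comp (castΓ N)

theorem conjΓ_injective (N q : ℕ) [NeZero q] : Function.Injective (conjΓ N q) :=
  (conjDiag_injective (q : ℚ) (qcast_ne_zero q)).comp (castΓ_injective N)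

/-- the two embeddings agree on `Γ0(Nq)` -/
theorem castΓ_incl_eq_conjΓ_conjEta (N q : ℕ) [NeZero q] (δ : ↥(Gamma0 (N * q))) :
    castΓ N (incl N q δ) = conjΓ N q (conjEta N q δ) := by
  have hq := qcast_ne_zero q
  show castSL (δ : SL(2, ℤ)) = conjDiag (q : ℚ) (qcast_ne_zero q) (castSL (conjEtaSL N q δ))
  rw [castSL_conjEtaSL]
  apply sl_ext
  · simp
  · simp only [conjDiag_01]
    field_simp
  · simp only [conjDiag_10]
    field_simp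
  · simp

/-! ### explicit elements of `Γ0(N)` -/

/-- `[[a, b],[c, d]] ∈ SL(2,ℤ)` -/
def mkSL (a b c d : ℤ) (hdet : a * d - b * c = 1) : SL(2, ℤ) :=
  ⟨!![a, b; c, d], by rw [Matrix.det_fin_two_of]; exact hdet⟩

/-- `[[a, b],[N c, d]] ∈ Γ0(N)` -/
def mkΓ (N : ℕ) (a b c d : ℤ) (hdet : a * d - b * (N * c) = 1) : ↥(Gamma0 N) :=
  ⟨mkSL a b (N * c) d hdet, by
    rw [mem_Gamma0_iff_dvd]; exact ⟨c, rfl⟩⟩

theorem mkΓ_00 (N : ℕ) (a b c d : ℤ) (h : a * d - b * (N * c) = 1) :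
    ((mkΓ N a b c d h : ↥(Gamma0 N)) : SL(2, ℤ)) 0 0 = a := rfl
theorem mkΓ_01 (N : ℕ) (a b c d : ℤ) (h : a * d - b * (N * c) = 1) :
    ((mkΓ N a b c d h : ↥(Gamma0 N)) : SL(2, ℤ)) 0 1 = b := rfl
theorem mkΓ_10 (N : ℕ) (a b c d : ℤ) (h : a * d - b * (N * c) = 1) :
    ((mkΓ N a b c d h : ↥(Gamma0 N)) : SL(2, ℤ)) 1 0 = N * c := rfl
theorem mkΓ_11 (N : ℕ) (a b c d : ℤ) (h : a * d - b * (N * c) = 1) :
    ((mkΓ N a b c d h : ↥(Gamma0 N)) : SL(2, ℤ)) 1 1 = d := rfl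

/-! ### the images of `Γ0(Nq)` -/

theorem mem_range_incl_iff {N q : ℕ} (hNq : Nat.Coprime N q) (γ : ↥(Gamma0 N)) :
    γ ∈ (incl N q).range ↔ (q : ℤ) ∣ (γ : SL(2, ℤ)) 1 0 := by
  constructor
  · rintro ⟨δ, rfl⟩
    exact dvd_of_mem_Gamma0_mul N q δ
  · intro h
    have hN : (N : ℤ) ∣ (γ : SL(2, ℤ)) 1 0 := mem_Gamma0_iff_dvd.1 γ.2
    have hcop : IsCoprime (N : ℤ) (q : ℤ) := Nat.isCoprime_iff_coprime.2 hNq
    have hmem : (γ : SL(2, ℤ)) ∈ Gamma0 (N * q) := by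
      rw [mem_Gamma0_iff_dvd]
      push_cast
      exact hcop.mul_dvd hN h
    exact ⟨⟨γ, hmem⟩, Subtype.ext rfl⟩

theorem mem_range_conjEta_iff {N q : ℕ} [NeZero q] (γ : ↥(Gamma0 N)) :
    γ ∈ (conjEta N q).range ↔ (q : ℤ) ∣ (γ : SL(2, ℤ)) 0 1 := by
  have hq : (q : ℤ) ≠ 0 := by exact_mod_cast NeZero.ne q
  constructor
  · rintro ⟨δ, rfl⟩
    exact ⟨_, conjEtaSL_01 N q δ⟩
  · intro h
    obtain ⟨k, hk⟩ := mem_Gamma0_iff_dvd.1 γ.2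
    have hdet : (γ : SL(2, ℤ)) 0 0 * (γ : SL(2, ℤ)) 1 1
        - ((γ : SL(2, ℤ)) 0 1 / q) * (((N * q : ℕ) : ℤ) * k) = 1 := by
      have h1 := sl_det (γ : SL(2, ℤ))
      have h2 : (q : ℤ) * ((γ : SL(2, ℤ)) 0 1 / q) = (γ : SL(2, ℤ)) 0 1 := Int.mul_ediv_cancel' h
      rw [hk] at h1
      push_cast
      calc (γ : SL(2, ℤ)) 0 0 * (γ : SL(2, ℤ)) 1 1 - (γ : SL(2, ℤ)) 0 1 / q * ((N : ℤ) * q * k)
          = (γ : SL(2, ℤ)) 0 0 * (γ : SL(2, ℤ)) 1 1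
            - ((q : ℤ) * ((γ : SL(2, ℤ)) 0 1 / q)) * ((N : ℤ) * k) := by ring
        _ = 1 := by rw [h2, h1]
    refine ⟨mkΓ (N * q) ((γ : SL(2, ℤ)) 0 0) ((γ : SL(2, ℤ)) 0 1 / q) k ((γ : SL(2, ℤ)) 1 1) hdet, ?_⟩
    apply Subtype.ext
    apply sl_ext
    · rfl
    · show (q : ℤ) * ((γ : SL(2, ℤ)) 0 1 / q) = (γ : SL(2, ℤ)) 0 1
      exact Int.mul_ediv_cancel' h
    · show (((N * q : ℕ) : ℤ) * k) / q = (γ : SL(2, ℤ)) 1 0
      rw [hk]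
      push_cast
      rw [mul_comm (N : ℤ) (q : ℤ), mul_assoc, Int.mul_ediv_cancel_left _ hq]
    · rfl

/-! ### the action on `ℚ²` and the ping-pong sets -/

/-- the plane `ℚ²` (a private copy, to carry the action of `SL(2,ℚ)`) -/
def Vec : Type := ℚ × ℚ

instance : MulAction SL(2, ℚ) Vec where
  smul g v := ((g 0 0 * v.1 + g 0 1 * v.2, g 1 0 * v.1 + g 1 1 * v.2) : ℚ × ℚ)
  one_smul v := by
    show (((1 : SL(2, ℚ)) 0 0 * v.1 + (1 : SL(2, ℚ)) 0 1 * v.2,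
      (1 : SL(2, ℚ)) 1 0 * v.1 + (1 : SL(2, ℚ)) 1 1 * v.2) : ℚ × ℚ) = v
    rw [sl_one_00, sl_one_01, sl_one_10, sl_one_11, one_mul, zero_mul, add_zero, zero_mul,
      one_mul, zero_add]
    rfl
  mul_smul g h v := by
    show ((((g * h) 0 0 * v.1 + (g * h) 0 1 * v.2,
      (g * h) 1 0 * v.1 + (g * h) 1 1 * v.2) : ℚ × ℚ)) =
      ((g 0 0 * (h 0 0 * v.1 + h 0 1 * v.2) + g 0 1 * (h 1 0 * v.1 + h 1 1 * v.2),
        g 1 0 * (h 0 0 * v.1 + h 0 1 * v.2) + g 1 1 * (h 1 0 * v.1 + h 1 1 * v.2)) : ℚ × ℚ)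
    rw [sl_mul_00, sl_mul_01, sl_mul_10, sl_mul_11]
    refine Prod.ext ?_ ?_ <;> ring

theorem smul_fst (g : SL(2, ℚ)) (v : Vec) : (g • v).1 = g 0 0 * v.1 + g 0 1 * v.2 := rfl
theorem smul_snd (g : SL(2, ℚ)) (v : Vec) : (g • v).2 = g 1 0 * v.1 + g 1 1 * v.2 := rfl

/-- the ping-pong sets -/
def UU (q : ℕ) : Bool → Set Vec
  | false => {v | padicNorm q v.1 ≤ padicNorm q v.2 ∧ v.2 ≠ 0}
  | true => {v | padicNorm q v.2 < padicNorm q v.1}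

/-- the two base maps -/
def baseMap (N q : ℕ) [NeZero q] : Bool → ↥(Gamma0 (N * q)) →* ↥(Gamma0 N)
  | false => incl N q
  | true => conjEta N q

/-- the two embeddings -/
def embMap (N q : ℕ) [NeZero q] : Bool → ↥(Gamma0 N) →* SL(2, ℚ)
  | false => castΓ N
  | true => conjΓ N q

section PP

variable {N q : ℕ} [hqf : Fact q.Prime]

theorem pp_false (γ : ↥(Gamma0 N)) (hγ : ¬ (q : ℤ) ∣ (γ : SL(2, ℤ)) 1 0) (v : Vec)
    (hv : padicNorm q v.2 < padicNorm q v.1) :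
    padicNorm q (castΓ N γ • v).1 ≤ padicNorm q (castΓ N γ • v).2 ∧ (castΓ N γ • v).2 ≠ 0 := by
  rw [smul_fst, smul_snd]
  simp only [castΓ_apply]
  set a := (γ : SL(2, ℤ)) 0 0
  set b := (γ : SL(2, ℤ)) 0 1
  set c := (γ : SL(2, ℤ)) 1 0
  set d := (γ : SL(2, ℤ)) 1 1
  have hc : padicNorm q (c : ℚ) = 1 := (padicNorm.int_eq_one_iff c).2 hγ
  have ha : padicNorm q (a : ℚ) ≤ 1 := padicNorm.of_int a
  have hb : padicNorm q (b : ℚ) ≤ 1 := padicNorm.of_int b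
  have hd : padicNorm q (d : ℚ) ≤ 1 := padicNorm.of_int d
  have hx0 : 0 ≤ padicNorm q v.1 := padicNorm.nonneg _
  have hy0 : 0 ≤ padicNorm q v.2 := padicNorm.nonneg _
  have h1 : padicNorm q ((c : ℚ) * v.1) = padicNorm q v.1 := by rw [padicNorm.mul, hc, one_mul]
  have h2 : padicNorm q ((d : ℚ) * v.2) ≤ padicNorm q v.2 := by
    rw [padicNorm.mul]; exact mul_le_of_le_one_left hy0 hd
  have h3 : padicNorm q ((c : ℚ) * v.1 + (d : ℚ) * v.2) = padicNorm q v.1 := by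
    rw [padicNorm.add_eq_max_of_ne (by rw [h1]; exact ne_of_gt (lt_of_le_of_lt h2 hv)), h1]
    exact max_eq_left (le_of_lt (lt_of_le_of_lt h2 hv))
  have h4 : padicNorm q ((a : ℚ) * v.1) ≤ padicNorm q v.1 := by
    rw [padicNorm.mul]; exact mul_le_of_le_one_left hx0 ha
  have h5 : padicNorm q ((b : ℚ) * v.2) ≤ padicNorm q v.1 := by
    rw [padicNorm.mul]; exact le_trans (mul_le_of_le_one_left hy0 hb) (le_of_lt hv)
  refine ⟨?_, ?_⟩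
  · rw [h3]
    exact le_trans padicNorm.nonarchimedean (max_le h4 h5)
  · intro h0
    rw [h0, padicNorm.zero] at h3
    rw [← h3] at hv
    exact absurd hv (not_lt.2 hy0)

theorem pp_true (γ : ↥(Gamma0 N)) (hγ : ¬ (q : ℤ) ∣ (γ : SL(2, ℤ)) 0 1) (v : Vec)
    (hv : padicNorm q v.1 ≤ padicNorm q v.2) (hv0 : v.2 ≠ 0) :
    padicNorm q (conjΓ N q γ • v).2 < padicNorm q (conjΓ N q γ • v).1 := by
  rw [smul_fst, smul_snd]
  show padicNorm q ((q : ℚ) * (castΓ N γ 1 0) * v.1 + castΓ N γ 1 1 * v.2)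
    < padicNorm q (castΓ N γ 0 0 * v.1 + castΓ N γ 0 1 / q * v.2)
  simp only [castΓ_apply]
  set a := (γ : SL(2, ℤ)) 0 0
  set b := (γ : SL(2, ℤ)) 0 1
  set c := (γ : SL(2, ℤ)) 1 0
  set d := (γ : SL(2, ℤ)) 1 1
  have hq1 : (1 : ℚ) < q := by exact_mod_cast hqf.out.one_lt
  have hq0 : (0 : ℚ) < q := lt_trans zero_lt_one hq1
  have hb : padicNorm q (b : ℚ) = 1 := (padicNorm.int_eq_one_iff b).2 hγ
  have ha : padicNorm q (a : ℚ) ≤ 1 := padicNorm.of_int a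
  have hc : padicNorm q (c : ℚ) ≤ 1 := padicNorm.of_int c
  have hd : padicNorm q (d : ℚ) ≤ 1 := padicNorm.of_int d
  have hx0 : 0 ≤ padicNorm q v.1 := padicNorm.nonneg _
  have hy0 : 0 < padicNorm q v.2 := lt_of_le_of_ne (padicNorm.nonneg _) (Ne.symm (padicNorm.nonzero hv0))
  have hqn : padicNorm q (q : ℚ) = (q : ℚ)⁻¹ := padicNorm.padicNorm_p_of_prime
  have h1 : padicNorm q ((b : ℚ) / q * v.2) = q * padicNorm q v.2 := by
    rw [padicNorm.mul, padicNorm.div, hb, hqn, one_div, inv_inv]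
  have h2 : padicNorm q ((a : ℚ) * v.1) ≤ padicNorm q v.2 := by
    rw [padicNorm.mul]; exact le_trans (mul_le_of_le_one_left hx0 ha) hv
  have hlt : padicNorm q v.2 < q * padicNorm q v.2 := by
    have := mul_lt_mul_of_pos_right hq1 hy0
    rwa [one_mul] at this
  have h3 : padicNorm q ((a : ℚ) * v.1 + (b : ℚ) / q * v.2) = q * padicNorm q v.2 := by
    rw [padicNorm.add_eq_max_of_ne (by rw [h1]; exact ne_of_lt (lt_of_le_of_lt h2 hlt)), h1]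
    exact max_eq_right (le_of_lt (lt_of_le_of_lt h2 hlt))
  have h4 : padicNorm q ((q : ℚ) * (c : ℚ) * v.1) ≤ padicNorm q v.2 := by
    rw [padicNorm.mul, padicNorm.mul, hqn]
    have h41 : (q : ℚ)⁻¹ * padicNorm q (c : ℚ) ≤ 1 := by
      have : (q : ℚ)⁻¹ ≤ 1 := inv_le_one_of_one_le₀ (le_of_lt hq1)
      calc (q : ℚ)⁻¹ * padicNorm q (c : ℚ) ≤ 1 * 1 :=
            mul_le_mul this hc (padicNorm.nonneg _) zero_le_one
        _ = 1 := one_mul 1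
    exact le_trans (mul_le_of_le_one_left hx0 h41) hv
  have h5 : padicNorm q ((d : ℚ) * v.2) ≤ padicNorm q v.2 := by
    rw [padicNorm.mul]; exact mul_le_of_le_one_left (le_of_lt hy0) hd
  rw [h3]
  exact lt_of_le_of_lt (le_trans padicNorm.nonarchimedean (max_le h4 h5)) hlt

theorem coe_mul_10 (x y : ↥(Gamma0 N)) : ((x * y : ↥(Gamma0 N)) : SL(2, ℤ)) 1 0
    = (x : SL(2, ℤ)) 1 0 * (y : SL(2, ℤ)) 0 0 + (x : SL(2, ℤ)) 1 1 * (y : SL(2, ℤ)) 1 0 := by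
  rw [Subgroup.coe_mul, sl_mul_10]

theorem coe_mul_01 (x y : ↥(Gamma0 N)) : ((x * y : ↥(Gamma0 N)) : SL(2, ℤ)) 0 1
    = (x : SL(2, ℤ)) 0 0 * (y : SL(2, ℤ)) 0 1 + (x : SL(2, ℤ)) 0 1 * (y : SL(2, ℤ)) 1 1 := by
  rw [Subgroup.coe_mul, sl_mul_01]

theorem prime_int : Prime (q : ℤ) := Nat.prime_iff_prime_int.mp hqf.out

theorem not_dvd_one : ¬ (q : ℤ) ∣ 1 := by
  intro h
  have := Int.natCast_dvd_natCast.1 (by simpa using h : ((q : ℕ) : ℤ) ∣ ((1 : ℕ) : ℤ))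
  exact hqf.out.one_lt.ne' (Nat.dvd_one.1 this)

omit hqf in
theorem not_dvd_N (hqN : ¬ q ∣ N) : ¬ (q : ℤ) ∣ (N : ℤ) := fun h => hqN (Int.natCast_dvd_natCast.1 h)

/-- index `≥ 3` on the `castΓ` side -/
theorem idx_false (hqN : ¬ q ∣ N) (γ : ↥(Gamma0 N)) :
    ∃ s : ↥(Gamma0 N), ¬ (q : ℤ) ∣ (s : SL(2, ℤ)) 1 0 ∧ ¬ (q : ℤ) ∣ ((s * γ : ↥(Gamma0 N)) : SL(2, ℤ)) 1 0 := by
  have hp := prime_int (q := q)
  have hN := not_dvd_N hqN
  set a := (γ : SL(2, ℤ)) 0 0 with ha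
  set b := (γ : SL(2, ℤ)) 0 1 with hb
  set c := (γ : SL(2, ℤ)) 1 0 with hc
  set d := (γ : SL(2, ℤ)) 1 1 with hd
  have hdet : a * d - b * c = 1 := sl_det (γ : SL(2, ℤ))
  by_cases h1 : (q : ℤ) ∣ (N : ℤ) * a + c
  · -- use `[[1,1],[N,1+N]]`
    have hcq : ¬ (q : ℤ) ∣ c := by
      intro hcq
      have h2 : (q : ℤ) ∣ (N : ℤ) * a := (dvd_add_left hcq).1 h1
      have h3 : (q : ℤ) ∣ a := (hp.dvd_or_dvd h2).resolve_left hN
      have h4 : (q : ℤ) ∣ a * d - b * c := dvd_sub (dvd_mul_of_dvd_left h3 d) (dvd_mul_of_dvd_right hcq b)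
      rw [hdet] at h4
      exact not_dvd_one h4
    refine ⟨mkΓ N 1 1 1 (1 + N) (by ring), ?_, ?_⟩
    · rw [mkΓ_10, mul_one]; exact hN
    · rw [coe_mul_10, mkΓ_10, mkΓ_11, ← ha, ← hc]
      intro h5
      have h6 : (N : ℤ) * 1 * a + (1 + (N : ℤ)) * c = ((N : ℤ) * a + c) + (N : ℤ) * c := by ring
      rw [h6] at h5
      have h7 : (q : ℤ) ∣ (N : ℤ) * c := (dvd_add_right h1).1 h5
      exact (hp.dvd_or_dvd h7).elim hN hcq
  · refine ⟨mkΓ N 1 0 1 1 (by ring), ?_, ?_⟩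
    · rw [mkΓ_10, mul_one]; exact hN
    · rw [coe_mul_10, mkΓ_10, mkΓ_11, ← ha, ← hc]
      intro h5
      apply h1
      have h6 : (N : ℤ) * 1 * a + 1 * c = (N : ℤ) * a + c := by ring
      rwa [h6] at h5

/-- index `≥ 3` on the `conjΓ` side -/
theorem idx_true (hqN : ¬ q ∣ N) (γ : ↥(Gamma0 N)) :
    ∃ s : ↥(Gamma0 N), ¬ (q : ℤ) ∣ (s : SL(2, ℤ)) 0 1 ∧ ¬ (q : ℤ) ∣ ((s * γ : ↥(Gamma0 N)) : SL(2, ℤ)) 0 1 := by
  have hp := prime_int (q := q)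
  have hN := not_dvd_N hqN
  set a := (γ : SL(2, ℤ)) 0 0 with ha
  set b := (γ : SL(2, ℤ)) 0 1 with hb
  set c := (γ : SL(2, ℤ)) 1 0 with hc
  set d := (γ : SL(2, ℤ)) 1 1 with hd
  have hdet : a * d - b * c = 1 := sl_det (γ : SL(2, ℤ))
  by_cases h1 : (q : ℤ) ∣ b + d
  · -- use `[[1+N,1],[N,1]]`
    have hbq : ¬ (q : ℤ) ∣ b := by
      intro hbq
      have h3 : (q : ℤ) ∣ d := (dvd_add_right hbq).1 h1
      have h4 : (q : ℤ) ∣ a * d - b * c := dvd_sub (dvd_mul_of_dvd_right h3 a) (dvd_mul_of_dvd_left hbq c)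
      rw [hdet] at h4
      exact not_dvd_one h4
    refine ⟨mkΓ N (1 + N) 1 1 1 (by ring), ?_, ?_⟩
    · rw [mkΓ_01]; exact not_dvd_one
    · rw [coe_mul_01, mkΓ_00, mkΓ_01, ← hb, ← hd]
      intro h5
      have h6 : (1 + (N : ℤ)) * b + 1 * d = (b + d) + (N : ℤ) * b := by ring
      rw [h6] at h5
      have h7 : (q : ℤ) ∣ (N : ℤ) * b := (dvd_add_right h1).1 h5
      exact (hp.dvd_or_dvd h7).elim hN hbq
  · refine ⟨mkΓ N 1 1 0 1 (by ring), ?_, ?_⟩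
    · rw [mkΓ_01]; exact not_dvd_one
    · rw [coe_mul_01, mkΓ_00, mkΓ_01, ← hb, ← hd]
      intro h5
      apply h1
      have h6 : (1 : ℤ) * b + 1 * d = b + d := by ring
      rwa [h6] at h5

/-- **the ping-pong data** for `Γ0(N) *_{Γ0(Nq)} η⁻¹Γ0(N)η` acting on `ℚ²` -/
theorem pingPongData (hqN : ¬ q ∣ N) :
    PingPong.Data (baseMap N q) (embMap N q) (UU q) where
  comp := castΓ_incl_eq_conjΓ_conjEta N q
  inj := by
    intro b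
    cases b
    · exact castΓ_injective N
    · exact conjΓ_injective N q
  disj := by
    rw [Set.disjoint_left]
    rintro v ⟨h1, _⟩ h2
    exact absurd h2 (not_lt.2 h1)
  ne := by
    intro b
    cases b
    · refine ⟨((0, 1) : ℚ × ℚ), ?_, ?_⟩
      · show padicNorm q (0 : ℚ) ≤ padicNorm q (1 : ℚ)
        rw [padicNorm.zero, padicNorm.one]; exact zero_le_one
      · show (1 : ℚ) ≠ 0
        exact one_ne_zero
    · refine ⟨((1, 0) : ℚ × ℚ), ?_⟩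
      show padicNorm q (0 : ℚ) < padicNorm q (1 : ℚ)
      rw [padicNorm.zero, padicNorm.one]; exact zero_lt_one
  pp := by
    have hcop : Nat.Coprime N q := ((Nat.Prime.coprime_iff_not_dvd hqf.out).2 hqN).symm
    intro b g hg x hx
    cases b
    · have hg' : ¬ (q : ℤ) ∣ (g : SL(2, ℤ)) 1 0 := fun h => hg ((mem_range_incl_iff hcop g).2 h)
      exact pp_false g hg' x hx
    · have hg' : ¬ (q : ℤ) ∣ (g : SL(2, ℤ)) 0 1 := fun h => hg ((mem_range_conjEta_iff g).2 h)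
      exact pp_true g hg' x hx.1 hx.2
  idx := by
    have hcop : Nat.Coprime N q := ((Nat.Prime.coprime_iff_not_dvd hqf.out).2 hqN).symm
    intro b g
    cases b
    · obtain ⟨s, h1, h2⟩ := idx_false hqN g
      exact ⟨s, fun h => h1 ((mem_range_incl_iff hcop s).1 h),
        fun h => h2 ((mem_range_incl_iff hcop _).1 h)⟩
    · obtain ⟨s, h1, h2⟩ := idx_true hqN g
      exact ⟨s, fun h => h1 ((mem_range_conjEta_iff s).1 h),
        fun h => h2 ((mem_range_conjEta_iff _).1 h)⟩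

end PP

end Fermat.Agent.S41.IH1
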