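/-
S41 / [IH1] (helper13): `Γ0(N)[1/q]` is generated by `Γ0(N)` and `η⁻¹ Γ0(N) η`.

* `ZInv q : Subring ℚ` = `ℤ[1/q]`;
* `GG N q : Subgroup SL(2,ℚ)` = `{g : entries in ℤ[1/q], g 1 0 ∈ N ℤ[1/q]}` = `Γ0(N)[1/q]`;
* `GG_eq_span` : for `q` prime, `q ∤ N`: `GG N q = PingPong.span (embMap N q)`
  (descent on the exponent `n` with `qⁿ g` integral; row reduction mod `q`).
-/
import Mathlib
import Fermat.Agent.S41.IH1.Concrete

set_option autoImplicit false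

open Matrix CongruenceSubgroup
open scoped MatrixGroups

namespace Fermat.Agent.S41.IH1

/-! ### `ℤ[1/q]` and `Γ0(N)[1/q]` -/

/-- `ℤ[1/q]` as a subring of `ℚ` -/
def ZInv (q : ℕ) : Subring ℚ where
  carrier := {x | ∃ n : ℕ, ∃ z : ℤ, x * (q : ℚ) ^ n = z}
  mul_mem' := by
    rintro x y ⟨n, z, hz⟩ ⟨m, w, hw⟩
    refine ⟨n + m, z * w, ?_⟩
    push_cast
    rw [← hz, ← hw, pow_add]
    ring
  one_mem' := ⟨0, 1, by simp⟩
  add_mem' := by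
    rintro x y ⟨n, z, hz⟩ ⟨m, w, hw⟩
    refine ⟨n + m, z * (q : ℤ) ^ m + w * (q : ℤ) ^ n, ?_⟩
    push_cast
    rw [← hz, ← hw, pow_add]
    ring
  zero_mem' := ⟨0, 0, by simp⟩
  neg_mem' := by
    rintro x ⟨n, z, hz⟩
    refine ⟨n, -z, ?_⟩
    push_cast
    rw [← hz]
    ring

theorem mem_ZInv_iff {q : ℕ} {x : ℚ} : x ∈ ZInv q ↔ ∃ n : ℕ, ∃ z : ℤ, x * (q : ℚ) ^ n = z := Iff.rfl

theorem intCast_mem_ZInv (q : ℕ) (z : ℤ) : (z : ℚ) ∈ ZInv q := ⟨0, z, by simp⟩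

theorem natCast_mem_ZInv (q : ℕ) (n : ℕ) : (n : ℚ) ∈ ZInv q := ⟨0, (n : ℤ), by simp⟩

theorem intCast_div_mem_ZInv (q : ℕ) [NeZero q] (z : ℤ) : (z : ℚ) / q ∈ ZInv q := by
  have hq : (q : ℚ) ≠ 0 := qcast_ne_zero q
  refine ⟨1, z, ?_⟩
  field_simp

/-- `Γ0(N)[1/q]` inside `SL(2,ℚ)` -/
def GG (N q : ℕ) : Subgroup SL(2, ℚ) where
  carrier := {g | (∀ i j, g i j ∈ ZInv q) ∧ ∃ y ∈ ZInv q, g 1 0 = N * y}
  mul_mem' := by
    rintro g h ⟨hg, yg, hyg, hg10⟩ ⟨hh, yh, hyh, hh10⟩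
    refine ⟨?_, yg * h 0 0 + g 1 1 * yh, ?_, ?_⟩
    · intro i j
      fin_cases i <;> fin_cases j
      · show (g * h) 0 0 ∈ ZInv q
        rw [sl_mul_00]
        exact add_mem (mul_mem (hg 0 0) (hh 0 0)) (mul_mem (hg 0 1) (hh 1 0))
      · show (g * h) 0 1 ∈ ZInv q
        rw [sl_mul_01]
        exact add_mem (mul_mem (hg 0 0) (hh 0 1)) (mul_mem (hg 0 1) (hh 1 1))
      · show (g * h) 1 0 ∈ ZInv q
        rw [sl_mul_10]
        exact add_mem (mul_mem (hg 1 0) (hh 0 0)) (mul_mem (hg 1 1) (hh 1 0))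
      · show (g * h) 1 1 ∈ ZInv q
        rw [sl_mul_11]
        exact add_mem (mul_mem (hg 1 0) (hh 0 1)) (mul_mem (hg 1 1) (hh 1 1))
    · exact add_mem (mul_mem hyg (hh 0 0)) (mul_mem (hg 1 1) hyh)
    · rw [sl_mul_10, hg10, hh10]
      ring
  one_mem' := by
    refine ⟨?_, 0, zero_mem _, ?_⟩
    · intro i j
      fin_cases i <;> fin_cases j
      · show (1 : SL(2, ℚ)) 0 0 ∈ ZInv q
        rw [sl_one_00]; exact one_mem _
      · show (1 : SL(2, ℚ)) 0 1 ∈ ZInv q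
        rw [sl_one_01]; exact zero_mem _
      · show (1 : SL(2, ℚ)) 1 0 ∈ ZInv q
        rw [sl_one_10]; exact zero_mem _
      · show (1 : SL(2, ℚ)) 1 1 ∈ ZInv q
        rw [sl_one_11]; exact one_mem _
    · rw [sl_one_10, mul_zero]
  inv_mem' := by
    rintro g ⟨hg, yg, hyg, hg10⟩
    refine ⟨?_, -yg, neg_mem hyg, ?_⟩
    · intro i j
      fin_cases i <;> fin_cases j
      · show (g⁻¹) 0 0 ∈ ZInv q
        rw [sl_inv_00]; exact hg 1 1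
      · show (g⁻¹) 0 1 ∈ ZInv q
        rw [sl_inv_01]; exact neg_mem (hg 0 1)
      · show (g⁻¹) 1 0 ∈ ZInv q
        rw [sl_inv_10]; exact neg_mem (hg 1 0)
      · show (g⁻¹) 1 1 ∈ ZInv q
        rw [sl_inv_11]; exact hg 0 0
    · rw [sl_inv_10, hg10]
      ring

theorem mem_GG_iff {N q : ℕ} {g : SL(2, ℚ)} :
    g ∈ GG N q ↔ (∀ i j, g i j ∈ ZInv q) ∧ ∃ y ∈ ZInv q, g 1 0 = N * y := Iff.rfl

theorem castΓ_mem_GG (N q : ℕ) (γ : ↥(Gamma0 N)) : castΓ N γ ∈ GG N q := by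
  refine ⟨fun i j => intCast_mem_ZInv q _, ?_⟩
  obtain ⟨k, hk⟩ := mem_Gamma0_iff_dvd.1 γ.2
  refine ⟨(k : ℚ), intCast_mem_ZInv q k, ?_⟩
  rw [castΓ_apply, hk]
  push_cast
  ring

theorem conjΓ_mem_GG (N q : ℕ) [NeZero q] (γ : ↥(Gamma0 N)) : conjΓ N q γ ∈ GG N q := by
  obtain ⟨k, hk⟩ := mem_Gamma0_iff_dvd.1 γ.2
  refine ⟨?_, (q : ℚ) * k, mul_mem (natCast_mem_ZInv q q) (intCast_mem_ZInv q k), ?_⟩
  · intro i j
    fin_cases i <;> fin_cases j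
    · exact intCast_mem_ZInv q _
    · exact intCast_div_mem_ZInv q _
    · exact mul_mem (natCast_mem_ZInv q q) (intCast_mem_ZInv q _)
    · exact intCast_mem_ZInv q _
  · show (q : ℚ) * castΓ N γ 1 0 = N * ((q : ℚ) * k)
    rw [castΓ_apply, hk]
    push_cast
    ring

theorem span_le_GG (N q : ℕ) [NeZero q] : PingPong.span (embMap N q) ≤ GG N q := by
  refine sup_le ?_ ?_
  · rintro _ ⟨γ, rfl⟩
    exact castΓ_mem_GG N q γ
  · rintro _ ⟨γ, rfl⟩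
    exact conjΓ_mem_GG N q γ

/-! ### row reduction mod `q` -/

theorem field_aux {F : Type*} [Field F] (a b c d n : F) (hn : n ≠ 0) (hab : ¬ (a = 0 ∧ b = 0))
    (h : a * d = b * c) : ∃ t, c + n * t * a = 0 ∧ d + n * t * b = 0 := by
  by_cases ha : a = 0
  · have hb : b ≠ 0 := fun hb => hab ⟨ha, hb⟩
    have hc : c = 0 := by
      rw [ha, zero_mul] at h
      exact (mul_eq_zero.1 h.symm).resolve_left hb
    refine ⟨-d / (n * b), ?_, ?_⟩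
    · rw [ha, hc]; ring
    · field_simp
      ring
  · refine ⟨-c / (n * a), ?_, ?_⟩
    · field_simp
      ring
    · have : d = b * c / a := by
        field_simp
        rw [mul_comm] at h
        linear_combination h
      rw [this]
      field_simp
      ring

section Row

variable {N q : ℕ} [hqf : Fact q.Prime]

theorem int_aux (A B C D n : ℤ) (hdet : (q : ℤ) ∣ A * D - B * C)
    (hAB : ¬ ((q : ℤ) ∣ A ∧ (q : ℤ) ∣ B)) (hn : ¬ (q : ℤ) ∣ n) :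
    ∃ t : ℤ, (q : ℤ) ∣ C + n * t * A ∧ (q : ℤ) ∣ D + n * t * B := by
  have h1 : ((A : ZMod q)) * (D : ZMod q) = (B : ZMod q) * (C : ZMod q) := by
    have := (ZMod.intCast_zmod_eq_zero_iff_dvd (A * D - B * C) q).2 hdet
    push_cast at this
    exact sub_eq_zero.1 this
  have h2 : ¬ ((A : ZMod q) = 0 ∧ (B : ZMod q) = 0) := by
    rintro ⟨ha, hb⟩
    exact hAB ⟨(ZMod.intCast_zmod_eq_zero_iff_dvd A q).1 ha, (ZMod.intCast_zmod_eq_zero_iff_dvd B q).1 hb⟩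
  have h3 : (n : ZMod q) ≠ 0 := fun h => hn ((ZMod.intCast_zmod_eq_zero_iff_dvd n q).1 h)
  obtain ⟨t, ht1, ht2⟩ := field_aux (A : ZMod q) (B : ZMod q) (C : ZMod q) (D : ZMod q) (n : ZMod q) h3 h2 h1
  obtain ⟨t', rfl⟩ := ZMod.intCast_surjective t
  refine ⟨t', ?_, ?_⟩
  · apply (ZMod.intCast_zmod_eq_zero_iff_dvd _ q).1
    push_cast
    exact ht1
  · apply (ZMod.intCast_zmod_eq_zero_iff_dvd _ q).1
    push_cast
    exact ht2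

theorem exists_one_add (hqN : ¬ q ∣ N) : ∃ t : ℤ, (q : ℤ) ∣ 1 + (N : ℤ) * t := by
  obtain ⟨t, ht, _⟩ := int_aux (q := q) 1 0 1 0 (N : ℤ) (by simp) (fun h => not_dvd_one h.1)
    (not_dvd_N hqN)
  exact ⟨t, by simpa using ht⟩

/-- make the second row divisible by `q` -/
theorem exists_row2 (hqN : ¬ q ∣ N) (A B C D : ℤ) (hdet : (q : ℤ) ∣ A * D - B * C) :
    ∃ γ : ↥(Gamma0 N), (q : ℤ) ∣ (γ : SL(2, ℤ)) 1 0 * A + (γ : SL(2, ℤ)) 1 1 * C ∧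
      (q : ℤ) ∣ (γ : SL(2, ℤ)) 1 0 * B + (γ : SL(2, ℤ)) 1 1 * D := by
  by_cases hCD : (q : ℤ) ∣ C ∧ (q : ℤ) ∣ D
  · refine ⟨1, ?_, ?_⟩
    · rw [Subgroup.coe_one, sl_one_10, sl_one_11, zero_mul, zero_add, one_mul]; exact hCD.1
    · rw [Subgroup.coe_one, sl_one_10, sl_one_11, zero_mul, zero_add, one_mul]; exact hCD.2
  by_cases hAB : (q : ℤ) ∣ A ∧ (q : ℤ) ∣ B
  · obtain ⟨t, ht⟩ := exists_one_add hqN
    refine ⟨mkΓ N 1 1 t ((N : ℤ) * t + 1) (by ring), ?_, ?_⟩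
    · rw [mkΓ_10, mkΓ_11]
      have : (q : ℤ) ∣ (N : ℤ) * t + 1 := by rwa [add_comm]
      exact dvd_add (dvd_mul_of_dvd_right hAB.1 _) (dvd_mul_of_dvd_left this _)
    · rw [mkΓ_10, mkΓ_11]
      have : (q : ℤ) ∣ (N : ℤ) * t + 1 := by rwa [add_comm]
      exact dvd_add (dvd_mul_of_dvd_right hAB.2 _) (dvd_mul_of_dvd_left this _)
  · obtain ⟨t, ht1, ht2⟩ := int_aux A B C D (N : ℤ) hdet hAB (not_dvd_N hqN)
    refine ⟨mkΓ N 1 0 t 1 (by ring), ?_, ?_⟩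
    · rw [mkΓ_10, mkΓ_11, one_mul, add_comm]; exact ht1
    · rw [mkΓ_10, mkΓ_11, one_mul, add_comm]; exact ht2

/-- make the first row divisible by `q` -/
theorem exists_row1 (hqN : ¬ q ∣ N) (A B C D : ℤ) (hdet : (q : ℤ) ∣ A * D - B * C) :
    ∃ γ : ↥(Gamma0 N), (q : ℤ) ∣ (γ : SL(2, ℤ)) 0 0 * A + (γ : SL(2, ℤ)) 0 1 * C ∧
      (q : ℤ) ∣ (γ : SL(2, ℤ)) 0 0 * B + (γ : SL(2, ℤ)) 0 1 * D := by
  by_cases hAB : (q : ℤ) ∣ A ∧ (q : ℤ) ∣ B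
  · refine ⟨1, ?_, ?_⟩
    · rw [Subgroup.coe_one, sl_one_00, sl_one_01, zero_mul, add_zero, one_mul]; exact hAB.1
    · rw [Subgroup.coe_one, sl_one_00, sl_one_01, zero_mul, add_zero, one_mul]; exact hAB.2
  by_cases hCD : (q : ℤ) ∣ C ∧ (q : ℤ) ∣ D
  · obtain ⟨t, ht⟩ := exists_one_add hqN
    refine ⟨mkΓ N (1 + t * (N : ℤ)) t 1 1 (by ring), ?_, ?_⟩
    · rw [mkΓ_00, mkΓ_01]
      have : (q : ℤ) ∣ 1 + t * (N : ℤ) := by rwa [mul_comm]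
      exact dvd_add (dvd_mul_of_dvd_left this _) (dvd_mul_of_dvd_right hCD.1 _)
    · rw [mkΓ_00, mkΓ_01]
      have : (q : ℤ) ∣ 1 + t * (N : ℤ) := by rwa [mul_comm]
      exact dvd_add (dvd_mul_of_dvd_left this _) (dvd_mul_of_dvd_right hCD.2 _)
  · have hdet' : (q : ℤ) ∣ C * B - D * A := by
      have : C * B - D * A = -(A * D - B * C) := by ring
      rw [this]; exact (dvd_neg).2 hdet
    obtain ⟨t, ht1, ht2⟩ := int_aux C D A B 1 hdet' hCD not_dvd_one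
    refine ⟨mkΓ N 1 t 0 1 (by ring), ?_, ?_⟩
    · rw [mkΓ_00, mkΓ_01, one_mul]; simpa using ht1
    · rw [mkΓ_00, mkΓ_01, one_mul]; simpa using ht2

end Row

/-! ### the descent -/

section Descent

variable {N q : ℕ} [hqf : Fact q.Prime]

/-- one descent step: if `q^(n+1) g` is integral, some `conjΓ γ₂ * (castΓ γ₁ * g)` has `q^n (…)`
integral -/
theorem descent_step (hqN : ¬ q ∣ N) (n : ℕ) (g : SL(2, ℚ)) (m00 m01 m10 m11 : ℤ)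
    (h00 : (q : ℚ) ^ (n + 1) * g 0 0 = m00) (h01 : (q : ℚ) ^ (n + 1) * g 0 1 = m01)
    (h10 : (q : ℚ) ^ (n + 1) * g 1 0 = m10) (h11 : (q : ℚ) ^ (n + 1) * g 1 1 = m11) :
    ∃ γ₁ γ₂ : ↥(Gamma0 N), ∀ i j, ∃ z : ℤ,
      (q : ℚ) ^ n * (conjΓ N q γ₂ * (castΓ N γ₁ * g)) i j = z := by
  have hq0 : (q : ℚ) ≠ 0 := qcast_ne_zero q
  have hqn0 : (q : ℚ) ^ n ≠ 0 := pow_ne_zero n hq0
  have hdetg := sl_det g
  -- step 1
  have hdetM : m00 * m11 - m01 * m10 = ((q : ℤ) ^ (n + 1)) ^ 2 := by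
    have : ((m00 * m11 - m01 * m10 : ℤ) : ℚ) = (((q : ℤ) ^ (n + 1)) ^ 2 : ℤ) := by
      push_cast
      rw [← h00, ← h01, ← h10, ← h11]
      linear_combination ((q : ℚ) ^ (n + 1)) ^ 2 * hdetg
    exact_mod_cast this
  have hqM : (q : ℤ) ∣ m00 * m11 - m01 * m10 := by
    rw [hdetM]
    exact dvd_pow (dvd_pow_self _ (Nat.succ_ne_zero n)) two_ne_zero
  obtain ⟨γ₁, ⟨C', hC'⟩, ⟨D', hD'⟩⟩ := exists_row2 hqN m00 m01 m10 m11 hqM
  set a₁ := (γ₁ : SL(2, ℤ)) 0 0 with ha₁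
  set b₁ := (γ₁ : SL(2, ℤ)) 0 1 with hb₁
  set c₁ := (γ₁ : SL(2, ℤ)) 1 0 with hc₁
  set d₁ := (γ₁ : SL(2, ℤ)) 1 1 with hd₁
  set g₁ := castΓ N γ₁ * g with hg₁
  have e00 : (q : ℚ) ^ n * q * g₁ 0 0 = ((a₁ * m00 + b₁ * m10 : ℤ) : ℚ) := by
    rw [hg₁, sl_mul_00, castΓ_apply, castΓ_apply, ← ha₁, ← hb₁]
    push_cast
    rw [← h00, ← h10, pow_succ]
    ring
  have e01 : (q : ℚ) ^ n * q * g₁ 0 1 = ((a₁ * m01 + b₁ * m11 : ℤ) : ℚ) := by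
    rw [hg₁, sl_mul_01, castΓ_apply, castΓ_apply, ← ha₁, ← hb₁]
    push_cast
    rw [← h01, ← h11, pow_succ]
    ring
  have e10 : (q : ℚ) ^ n * g₁ 1 0 = (C' : ℚ) := by
    have : (q : ℚ) * ((q : ℚ) ^ n * g₁ 1 0) = (q : ℚ) * (C' : ℚ) := by
      have hC'' : ((c₁ * m00 + d₁ * m10 : ℤ) : ℚ) = (((q : ℤ) * C' : ℤ) : ℚ) := by rw [hC']
      push_cast at hC''
      rw [← hC'', hg₁, sl_mul_10, castΓ_apply, castΓ_apply, ← hc₁, ← hd₁, ← h00, ← h10, pow_succ]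
      ring
    exact mul_left_cancel₀ hq0 this
  have e11 : (q : ℚ) ^ n * g₁ 1 1 = (D' : ℚ) := by
    have : (q : ℚ) * ((q : ℚ) ^ n * g₁ 1 1) = (q : ℚ) * (D' : ℚ) := by
      have hD'' : ((c₁ * m01 + d₁ * m11 : ℤ) : ℚ) = (((q : ℤ) * D' : ℤ) : ℚ) := by rw [hD']
      push_cast at hD''
      rw [← hD'', hg₁, sl_mul_11, castΓ_apply, castΓ_apply, ← hc₁, ← hd₁, ← h01, ← h11, pow_succ]
      ring
    exact mul_left_cancel₀ hq0 this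
  -- step 2
  set A' : ℤ := a₁ * m00 + b₁ * m10 with hA'
  set B' : ℤ := a₁ * m01 + b₁ * m11 with hB'
  have hdetg₁ := sl_det g₁
  have hdetM' : A' * D' - B' * C' = (q : ℤ) ^ (2 * n + 1) := by
    have : ((A' * D' - B' * C' : ℤ) : ℚ) = (((q : ℤ) ^ (2 * n + 1) : ℤ) : ℚ) := by
      push_cast
      rw [← e00, ← e01, ← e10, ← e11]
      have : (q : ℚ) ^ (2 * n + 1) = (q : ℚ) ^ n * (q : ℚ) ^ n * q := by
        rw [pow_succ, two_mul, pow_add]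
      rw [this]
      linear_combination ((q : ℚ) ^ n * (q : ℚ) ^ n * q) * hdetg₁
    exact_mod_cast this
  have hqM' : (q : ℤ) ∣ A' * D' - B' * C' := by
    rw [hdetM']
    exact dvd_pow_self _ (Nat.succ_ne_zero _)
  obtain ⟨γ₂, ⟨A'', hA''⟩, ⟨B'', hB''⟩⟩ := exists_row1 hqN A' B' C' D' hqM'
  set a₂ := (γ₂ : SL(2, ℤ)) 0 0 with ha₂
  set b₂ := (γ₂ : SL(2, ℤ)) 0 1 with hb₂
  set c₂ := (γ₂ : SL(2, ℤ)) 1 0 with hc₂
  set d₂ := (γ₂ : SL(2, ℤ)) 1 1 with hd₂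
  have hA''q : ((a₂ : ℚ) * A' + b₂ * C') = (q : ℚ) * A'' := by exact_mod_cast hA''
  have hB''q : ((a₂ : ℚ) * B' + b₂ * D') = (q : ℚ) * B'' := by exact_mod_cast hB''
  have k00 : conjΓ N q γ₂ 0 0 = (a₂ : ℚ) := rfl
  have k01 : conjΓ N q γ₂ 0 1 = (b₂ : ℚ) / q := rfl
  have k10 : conjΓ N q γ₂ 1 0 = (q : ℚ) * c₂ := rfl
  have k11 : conjΓ N q γ₂ 1 1 = (d₂ : ℚ) := rfl
  refine ⟨γ₁, γ₂, ?_⟩
  intro i j
  fin_cases i <;> fin_cases j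
  · refine ⟨A'', ?_⟩
    show (q : ℚ) ^ n * (conjΓ N q γ₂ * g₁) 0 0 = A''
    rw [sl_mul_00, k00, k01]
    apply mul_left_cancel₀ hq0
    rw [← hA''q, ← e00, ← e10]
    field_simp
  · refine ⟨B'', ?_⟩
    show (q : ℚ) ^ n * (conjΓ N q γ₂ * g₁) 0 1 = B''
    rw [sl_mul_01, k00, k01]
    apply mul_left_cancel₀ hq0
    rw [← hB''q, ← e01, ← e11]
    field_simp
  · refine ⟨c₂ * A' + d₂ * C', ?_⟩
    show (q : ℚ) ^ n * (conjΓ N q γ₂ * g₁) 1 0 = ((c₂ * A' + d₂ * C' : ℤ) : ℚ)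
    rw [sl_mul_10, k10, k11]
    push_cast
    rw [← e00, ← e10]
    ring
  · refine ⟨c₂ * B' + d₂ * D', ?_⟩
    show (q : ℚ) ^ n * (conjΓ N q γ₂ * g₁) 1 1 = ((c₂ * B' + d₂ * D' : ℤ) : ℚ)
    rw [sl_mul_11, k10, k11]
    push_cast
    rw [← e01, ← e11]
    ring

omit hqf in
theorem scale_mono {x : ℚ} {n m : ℕ} (h : ∃ z : ℤ, x * (q : ℚ) ^ n = z) (hnm : n ≤ m) :
    ∃ z : ℤ, (q : ℚ) ^ m * x = z := by
  obtain ⟨z, hz⟩ := h
  refine ⟨z * (q : ℤ) ^ (m - n), ?_⟩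
  push_cast
  rw [← hz, mul_assoc, ← pow_add, Nat.add_sub_cancel' hnm, mul_comm]

omit hqf in
theorem exists_scale (g : SL(2, ℚ)) (hg : ∀ i j, g i j ∈ ZInv q) :
    ∃ n : ℕ, ∀ i j, ∃ z : ℤ, (q : ℚ) ^ n * g i j = z := by
  obtain ⟨n00, h00⟩ := hg 0 0
  obtain ⟨n01, h01⟩ := hg 0 1
  obtain ⟨n10, h10⟩ := hg 1 0
  obtain ⟨n11, h11⟩ := hg 1 1
  refine ⟨n00 + n01 + n10 + n11, ?_⟩
  intro i j
  fin_cases i <;> fin_cases j
  · exact scale_mono h00 (by omega)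
  · exact scale_mono h01 (by omega)
  · exact scale_mono h10 (by omega)
  · exact scale_mono h11 (by omega)

/-- the descent: every element of `Γ0(N)[1/q]` lies in the span of the two copies of `Γ0(N)` -/
theorem mem_span_of_scaled (hqN : ¬ q ∣ N) : ∀ (n : ℕ) (g : SL(2, ℚ)), g ∈ GG N q →
    (∀ i j, ∃ z : ℤ, (q : ℚ) ^ n * g i j = z) → g ∈ PingPong.span (embMap N q)
  | 0, g, hg, hz => by
    obtain ⟨z00, h00⟩ := hz 0 0
    obtain ⟨z01, h01⟩ := hz 0 1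
    obtain ⟨z10, h10⟩ := hz 1 0
    obtain ⟨z11, h11⟩ := hz 1 1
    rw [pow_zero, one_mul] at h00 h01 h10 h11
    obtain ⟨_, y, ⟨k, w, hw⟩, hy⟩ := hg
    have hcop : IsCoprime (N : ℤ) ((q : ℤ) ^ k) :=
      (Nat.isCoprime_iff_coprime.2
        ((Nat.Prime.coprime_iff_not_dvd hqf.out).2 hqN).symm).pow_right
    have hN : (N : ℤ) ∣ z10 := by
      apply hcop.dvd_of_dvd_mul_right
      refine ⟨w, ?_⟩
      have : ((z10 * (q : ℤ) ^ k : ℤ) : ℚ) = ((N * w : ℤ) : ℚ) := by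
        push_cast
        rw [← h10, hy, ← hw]
        ring
      exact_mod_cast this
    obtain ⟨c', hc'⟩ := hN
    have hdet : z00 * z11 - z01 * ((N : ℤ) * c') = 1 := by
      rw [← hc']
      have := sl_det g
      rw [h00, h01, h10, h11] at this
      exact_mod_cast this
    have hgeq : g = castΓ N (mkΓ N z00 z01 c' z11 hdet) := by
      apply sl_ext
      · rw [castΓ_apply, mkΓ_00, h00]
      · rw [castΓ_apply, mkΓ_01, h01]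
      · rw [castΓ_apply, mkΓ_10, h10, hc']
      · rw [castΓ_apply, mkΓ_11, h11]
    rw [hgeq]
    exact PingPong.map_mem_span (embMap N q) false _
  | n + 1, g, hg, hz => by
    obtain ⟨m00, h00⟩ := hz 0 0
    obtain ⟨m01, h01⟩ := hz 0 1
    obtain ⟨m10, h10⟩ := hz 1 0
    obtain ⟨m11, h11⟩ := hz 1 1
    obtain ⟨γ₁, γ₂, hz'⟩ := descent_step hqN n g m00 m01 m10 m11 h00 h01 h10 h11
    have hmem : conjΓ N q γ₂ * (castΓ N γ₁ * g) ∈ GG N q :=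
      mul_mem (conjΓ_mem_GG N q γ₂) (mul_mem (castΓ_mem_GG N q γ₁) hg)
    have ih := mem_span_of_scaled hqN n _ hmem hz'
    have h1 : castΓ N γ₁ ∈ PingPong.span (embMap N q) := PingPong.map_mem_span (embMap N q) false γ₁
    have h2 : conjΓ N q γ₂ ∈ PingPong.span (embMap N q) := PingPong.map_mem_span (embMap N q) true γ₂
    have hgeq : g = (castΓ N γ₁)⁻¹ * ((conjΓ N q γ₂)⁻¹ * (conjΓ N q γ₂ * (castΓ N γ₁ * g))) := by
      group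
    rw [hgeq]
    exact mul_mem (inv_mem h1) (mul_mem (inv_mem h2) ih)

/-- **Generation**: `Γ0(N)[1/q]` is generated by `Γ0(N)` and `η⁻¹ Γ0(N) η`. -/
theorem GG_eq_span (hqN : ¬ q ∣ N) : GG N q = PingPong.span (embMap N q) := by
  apply le_antisymm
  · intro g hg
    obtain ⟨n, hn⟩ := exists_scale g hg.1
    exact mem_span_of_scaled hqN n g hg hn
  · exact span_le_GG N q

end Descent

end Fermat.Agent.S41.IH1
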