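/-
S41 / [IH1] (helper13): the amalgam `Γ0(N)[1/q] = Γ0(N) *_{Γ0(Nq)} η⁻¹Γ0(N)η` in the form consumed
by Ihara's lemma: a compatible pair of homomorphisms on the two copies of `Γ0(N)` extends to
`Γ0(N)[1/q]`.

* `exists_extension_mul` (multiplicative), `exists_extension` (additive, the announced API);
* `instance : IsLocalization.Away (q : ℤ) ↥(ZInv q)`.
-/
import Mathlib
import Fermat.Agent.S41.IH1.Generation

set_option autoImplicit false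

open Matrix CongruenceSubgroup
open scoped MatrixGroups

namespace Fermat.Agent.S41.IH1

section Ext

variable {N q : ℕ} [hqf : Fact q.Prime]

/-- **Amalgam, multiplicative form.**  Two homs `ψ₁ ψ₂ : Γ0(N) →* M` (`M` commutative) with
`ψ₁ δ = ψ₂ (η δ η⁻¹)` for `δ ∈ Γ0(Nq)` glue to a hom on `Γ0(N)[1/q]`. -/
theorem exists_extension_mul (hqN : ¬ q ∣ N) {M : Type*} [CommGroup M]
    (ψ₁ ψ₂ : ↥(Gamma0 N) →* M)
    (h : ∀ δ : ↥(Gamma0 (N * q)), ψ₁ (incl N q δ) = ψ₂ (conjEta N q δ)) :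
    ∃ Ψ : ↥(GG N q) →* M,
      (∀ γ : ↥(Gamma0 N), Ψ ⟨castΓ N γ, castΓ_mem_GG N q γ⟩ = ψ₁ γ) ∧
      (∀ γ : ↥(Gamma0 N), Ψ ⟨conjΓ N q γ, conjΓ_mem_GG N q γ⟩ = ψ₂ γ) := by
  let ψ : Bool → ↥(Gamma0 N) →* M := fun b => match b with
    | false => ψ₁
    | true => ψ₂
  obtain ⟨Ψ, hΨ⟩ := PingPong.exists_hom (pingPongData (N := N) (q := q) hqN) ψ h
  have hle : GG N q ≤ PingPong.span (embMap N q) := le_of_eq (GG_eq_span hqN)
  refine ⟨Ψ.comp (Subgroup.inclusion hle), ?_, ?_⟩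
  · intro γ
    exact hΨ false γ
  · intro γ
    exact hΨ true γ

/-- **Amalgam, additive form (the [IH1] API).**  If `φ₁ ∘ incl + φ₂ ∘ conjEta = 0` on `Γ0(Nq)`,
there is `φ` on `Γ0(N)[1/q]` restricting to `φ₁` on `Γ0(N)` and to `-φ₂` on `η⁻¹Γ0(N)η`. -/
theorem exists_extension (hqN : ¬ q ∣ N) {k : Type*} [AddCommGroup k]
    (φ₁ φ₂ : Additive ↥(Gamma0 N) →+ k)
    (h : ∀ δ : ↥(Gamma0 (N * q)),
      φ₁ (Additive.ofMul (incl N q δ)) + φ₂ (Additive.ofMul (conjEta N q δ)) = 0) :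
    ∃ φ : Additive ↥(GG N q) →+ k,
      (∀ γ : ↥(Gamma0 N),
        φ (Additive.ofMul ⟨castΓ N γ, castΓ_mem_GG N q γ⟩) = φ₁ (Additive.ofMul γ)) ∧
      (∀ γ : ↥(Gamma0 N),
        φ (Additive.ofMul ⟨conjΓ N q γ, conjΓ_mem_GG N q γ⟩) = - φ₂ (Additive.ofMul γ)) := by
  obtain ⟨Ψ, h1, h2⟩ := exists_extension_mul (N := N) (q := q) hqN
    (AddMonoidHom.toMultiplicativeRight φ₁) (AddMonoidHom.toMultiplicativeRight (-φ₂)) (by
      intro δ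
      show Multiplicative.ofAdd (φ₁ (Additive.ofMul (incl N q δ)))
        = Multiplicative.ofAdd ((-φ₂) (Additive.ofMul (conjEta N q δ)))
      rw [AddMonoidHom.neg_apply, eq_neg_of_add_eq_zero_left (h δ)])
  refine ⟨MonoidHom.toAdditiveLeft Ψ, ?_, ?_⟩
  · intro γ
    have := h1 γ
    exact congrArg Multiplicative.toAdd this
  · intro γ
    have := h2 γ
    exact congrArg Multiplicative.toAdd this

end Ext

/-! ### `ℤ[1/q]` is the localization of `ℤ` away from `q` -/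

instance instIsLocalizationAwayZInv (q : ℕ) [NeZero q] :
    IsLocalization.Away (q : ℤ) ↥(ZInv q) := by
  have hq : (q : ℚ) ≠ 0 := qcast_ne_zero q
  refine (isLocalization_iff (Submonoid.powers (q : ℤ)) ↥(ZInv q)).2 ⟨?_, ?_, ?_⟩
  · rintro ⟨y, n, rfl⟩
    have hmem : ((q : ℚ) ^ n)⁻¹ ∈ ZInv q := ⟨n, 1, by
      rw [inv_mul_cancel₀ (pow_ne_zero n hq)]; simp⟩
    refine IsUnit.of_mul_eq_one (⟨((q : ℚ) ^ n)⁻¹, hmem⟩ : ↥(ZInv q)) ?_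
    apply Subtype.ext
    show ((algebraMap ℤ ↥(ZInv q) ((q : ℤ) ^ n) : ↥(ZInv q)) : ℚ) * ((q : ℚ) ^ n)⁻¹ = 1
    have : ((algebraMap ℤ ↥(ZInv q) ((q : ℤ) ^ n) : ↥(ZInv q)) : ℚ) = (q : ℚ) ^ n := by
      simp
    rw [this, mul_inv_cancel₀ (pow_ne_zero n hq)]
  · rintro ⟨z, n, w, hw⟩
    refine ⟨(w, ⟨(q : ℤ) ^ n, n, rfl⟩), ?_⟩
    apply Subtype.ext
    show z * ((algebraMap ℤ ↥(ZInv q) ((q : ℤ) ^ n) : ↥(ZInv q)) : ℚ)
      = ((algebraMap ℤ ↥(ZInv q) w : ↥(ZInv q)) : ℚ)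
    have h1 : ((algebraMap ℤ ↥(ZInv q) ((q : ℤ) ^ n) : ↥(ZInv q)) : ℚ) = (q : ℚ) ^ n := by
      simp
    have h2 : ((algebraMap ℤ ↥(ZInv q) w : ↥(ZInv q)) : ℚ) = (w : ℚ) := by
      simp
    rw [h1, h2, hw]
  · intro x y hxy
    refine ⟨1, ?_⟩
    have h1 : ((algebraMap ℤ ↥(ZInv q) x : ↥(ZInv q)) : ℚ) = (x : ℚ) := by simp
    have h2 : ((algebraMap ℤ ↥(ZInv q) y : ↥(ZInv q)) : ℚ) = (y : ℚ) := by simp
    have : (x : ℚ) = (y : ℚ) := by rw [← h1, ← h2, hxy]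
    have hxy' : x = y := by exact_mod_cast this
    rw [hxy']

end Fermat.Agent.S41.IH1
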