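/-
S41 / [IH1], generation half: the number-theoretic core of the descent.

For a prime `q ∤ N` and an integral `2 × 2` matrix `R` with `q ∣ det R` there is `γ ∈ Γ₀(N)` such
that the first (resp. the second) row of `γ * R` vanishes mod `q`.
Mathlib + `M2/P1Action` (`exists_isCoprime_add_mul`) only.
-/
import Mathlib
import Fermat.Agent.M2.P1Action

set_option autoImplicit false

namespace Fermat.Agent.S41.IH1.GenDescentCore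

open Matrix MatrixGroups CongruenceSubgroup

variable {q N : ℕ}

theorem isCoprime_q_N (hq : q.Prime) (hqN : ¬ q ∣ N) : IsCoprime (q : ℤ) (N : ℤ) := by
  rw [Int.isCoprime_iff_gcd_eq_one]
  exact_mod_cast (Nat.Prime.coprime_iff_not_dvd hq).mpr hqN

theorem N_ne_zero (hqN : ¬ q ∣ N) : (N : ℤ) ≠ 0 := by
  intro h
  apply hqN
  have : N = 0 := by exact_mod_cast h
  rw [this]
  exact dvd_zero q

theorem q_ne_zero (hq : q.Prime) : (q : ℤ) ≠ 0 := by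
  exact_mod_cast hq.ne_zero

/-- CRT for the coprime moduli `q`, `N`. -/
theorem exists_crt (hq : q.Prime) (hqN : ¬ q ∣ N) (x₀ e : ℤ) :
    ∃ x : ℤ, (q : ℤ) ∣ x - x₀ ∧ (N : ℤ) ∣ x - e := by
  obtain ⟨u, v, huv⟩ := isCoprime_q_N hq hqN
  refine ⟨x₀ * (v * N) + e * (u * q), ⟨u * (e - x₀), ?_⟩, ⟨v * (x₀ - e), ?_⟩⟩
  · linear_combination x₀ * huv
  · linear_combination e * huv

/-- CRT with a nonzero solution. -/
theorem exists_crt_ne_zero (hq : q.Prime) (hqN : ¬ q ∣ N) (x₀ e : ℤ) :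
    ∃ x : ℤ, x ≠ 0 ∧ (q : ℤ) ∣ x - x₀ ∧ (N : ℤ) ∣ x - e := by
  obtain ⟨x, hxq, hxN⟩ := exists_crt hq hqN x₀ e
  by_cases hx : x = 0
  · refine ⟨x + q * N, ?_, ?_, ?_⟩
    · rw [hx, zero_add]
      exact mul_ne_zero (q_ne_zero hq) (N_ne_zero hqN)
    · have : x + q * N - x₀ = (x - x₀) + q * N := by ring
      rw [this]
      exact dvd_add hxq (dvd_mul_right _ _)
    · have : x + q * N - e = (x - e) + q * N := by ring
      rw [this]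
      exact dvd_add hxN (dvd_mul_left _ _)
  · exact ⟨x, hx, hxq, hxN⟩

theorem isCoprime_of_not_dvd (hq : q.Prime) {y : ℤ} (hy : ¬ (q : ℤ) ∣ y) : IsCoprime (q : ℤ) y :=
  ((Nat.prime_iff_prime_int.mp hq).irreducible.coprime_iff_not_dvd).mpr hy

/-- the unimodularity input of `exists_isCoprime_add_mul` -/
theorem exists_lin_comb (hq : q.Prime) {x₀ y₀ x : ℤ} (h : ¬ ((q : ℤ) ∣ x₀ ∧ (q : ℤ) ∣ y₀))
    (hx : (q : ℤ) ∣ x - x₀) : ∃ a b c : ℤ, a * y₀ + b * x + c * q = 1 := by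
  by_cases hy : (q : ℤ) ∣ y₀
  · have hx₀ : ¬ (q : ℤ) ∣ x₀ := fun h' => h ⟨h', hy⟩
    have hxq : ¬ (q : ℤ) ∣ x := by
      intro h'
      apply hx₀
      have : x₀ = x - (x - x₀) := by ring
      rw [this]
      exact dvd_sub h' hx
    obtain ⟨u, v, huv⟩ := isCoprime_of_not_dvd hq hxq
    exact ⟨0, v, u, by linear_combination huv⟩
  · obtain ⟨u, v, huv⟩ := isCoprime_of_not_dvd hq hy
    exact ⟨v, 0, u, by linear_combination huv⟩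

/-- **(a)** an element of `Γ₀(N)` with prescribed first row mod `q`. -/
theorem exists_gamma0_row0_congr (hq : q.Prime) (hqN : ¬ q ∣ N) (x₀ y₀ : ℤ)
    (h : ¬ ((q : ℤ) ∣ x₀ ∧ (q : ℤ) ∣ y₀)) :
    ∃ γ : SL(2, ℤ), γ ∈ Gamma0 N ∧ (q : ℤ) ∣ γ 0 0 - x₀ ∧ (q : ℤ) ∣ γ 0 1 - y₀ := by
  obtain ⟨x, hx0, hxq, ⟨k, hk⟩⟩ := exists_crt_ne_zero hq hqN x₀ 1
  obtain ⟨t, ht⟩ := Fermat.Agent.M2.P1.exists_isCoprime_add_mul y₀ x q hx0
    (exists_lin_comb hq h hxq)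
  have hxN : IsCoprime x (N : ℤ) := ⟨1, -k, by linear_combination hk⟩
  have hxy : IsCoprime x ((y₀ + t * q) * N) := IsCoprime.mul_right ht.symm hxN
  obtain ⟨w, z, hwz⟩ := hxy
  have hdet : (!![x, y₀ + t * q; -(z * N), w] : Matrix (Fin 2) (Fin 2) ℤ).det = 1 := by
    rw [Matrix.det_fin_two_of]
    linear_combination hwz
  let γ : SL(2, ℤ) := ⟨!![x, y₀ + t * q; -(z * N), w], hdet⟩
  refine ⟨γ, ?_, ?_, ?_⟩
  · rw [Gamma0_mem]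
    show (((-(z * N) : ℤ)) : ZMod N) = 0
    simp
  · show (q : ℤ) ∣ x - x₀
    exact hxq
  · show (q : ℤ) ∣ (y₀ + t * q) - y₀
    exact ⟨t, by ring⟩

/-- **(b)** an element of `Γ₀(N)` with prescribed second row mod `q`. -/
theorem exists_gamma0_row1_congr (hq : q.Prime) (hqN : ¬ q ∣ N) (x₀ y₀ : ℤ)
    (h : ¬ ((q : ℤ) ∣ x₀ ∧ (q : ℤ) ∣ y₀)) :
    ∃ γ : SL(2, ℤ), γ ∈ Gamma0 N ∧ (q : ℤ) ∣ γ 1 0 - x₀ ∧ (q : ℤ) ∣ γ 1 1 - y₀ := by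
  obtain ⟨z, hz0, hzq, ⟨k, hk⟩⟩ := exists_crt_ne_zero hq hqN x₀ 0
  obtain ⟨t, ht⟩ := Fermat.Agent.M2.P1.exists_isCoprime_add_mul y₀ z q hz0
    (exists_lin_comb hq h hzq)
  obtain ⟨a, b, hab⟩ := ht
  have hdet : (!![a, -b; z, y₀ + t * q] : Matrix (Fin 2) (Fin 2) ℤ).det = 1 := by
    rw [Matrix.det_fin_two_of]
    linear_combination hab
  let γ : SL(2, ℤ) := ⟨!![a, -b; z, y₀ + t * q], hdet⟩
  refine ⟨γ, ?_, ?_, ?_⟩
  · rw [Gamma0_mem]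
    show ((z : ℤ) : ZMod N) = 0
    have : z = N * k := by linear_combination hk
    rw [this]
    simp
  · show (q : ℤ) ∣ z - x₀
    exact hzq
  · show (q : ℤ) ∣ (y₀ + t * q) - y₀
    exact ⟨t, by ring⟩

/-- a left null vector mod `q` of an integral matrix with `q ∣ det` -/
theorem exists_null_vector (hq : q.Prime) (R : Matrix (Fin 2) (Fin 2) ℤ) (h : (q : ℤ) ∣ R.det) :
    ∃ x₀ y₀ : ℤ, ¬ ((q : ℤ) ∣ x₀ ∧ (q : ℤ) ∣ y₀) ∧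
      (q : ℤ) ∣ x₀ * R 0 0 + y₀ * R 1 0 ∧ (q : ℤ) ∣ x₀ * R 0 1 + y₀ * R 1 1 := by
  rw [Matrix.det_fin_two] at h
  by_cases h1 : (q : ℤ) ∣ R 1 0 ∧ (q : ℤ) ∣ R 0 0
  · by_cases h2 : (q : ℤ) ∣ R 1 1 ∧ (q : ℤ) ∣ R 0 1
    · refine ⟨1, 0, ?_, ?_, ?_⟩
      · rintro ⟨h3, -⟩
        exact (Nat.prime_iff_prime_int.mp hq).not_dvd_one h3
      · simpa using h1.2
      · simpa using h2.2
    · refine ⟨R 1 1, -R 0 1, ?_, ?_, ?_⟩
      · rintro ⟨h3, h4⟩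
        exact h2 ⟨h3, (dvd_neg.mp h4)⟩
      · have : R 1 1 * R 0 0 + -R 0 1 * R 1 0 = R 0 0 * R 1 1 - R 0 1 * R 1 0 := by ring
        rw [this]
        exact h
      · have : R 1 1 * R 0 1 + -R 0 1 * R 1 1 = 0 := by ring
        rw [this]
        exact dvd_zero _
  · refine ⟨R 1 0, -R 0 0, ?_, ?_, ?_⟩
    · rintro ⟨h3, h4⟩
      exact h1 ⟨h3, (dvd_neg.mp h4)⟩
    · have : R 1 0 * R 0 0 + -R 0 0 * R 1 0 = 0 := by ring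
      rw [this]
      exact dvd_zero _
    · have : R 1 0 * R 0 1 + -R 0 0 * R 1 1 = -(R 0 0 * R 1 1 - R 0 1 * R 1 0) := by ring
      rw [this]
      exact dvd_neg.mpr h

/-- **Row 0**: `γ ∈ Γ₀(N)` with the first row of `γ * R` divisible by `q`. -/
theorem exists_gamma0_row0 (hq : q.Prime) (hqN : ¬ q ∣ N) (R : Matrix (Fin 2) (Fin 2) ℤ)
    (h : (q : ℤ) ∣ R.det) :
    ∃ γ : SL(2, ℤ), γ ∈ Gamma0 N ∧ (q : ℤ) ∣ (γ.1 * R) 0 0 ∧ (q : ℤ) ∣ (γ.1 * R) 0 1 := by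
  obtain ⟨x₀, y₀, hxy, h0, h1⟩ := exists_null_vector hq R h
  obtain ⟨γ, hγ, hx, hy⟩ := exists_gamma0_row0_congr hq hqN x₀ y₀ hxy
  refine ⟨γ, hγ, ?_, ?_⟩
  · rw [Matrix.mul_apply, Fin.sum_univ_two]
    have : γ.1 0 0 * R 0 0 + γ.1 0 1 * R 1 0 =
        (γ 0 0 - x₀) * R 0 0 + (γ 0 1 - y₀) * R 1 0 + (x₀ * R 0 0 + y₀ * R 1 0) := by ring
    rw [this]
    exact dvd_add (dvd_add (hx.mul_right _) (hy.mul_right _)) h0
  · rw [Matrix.mul_apply, Fin.sum_univ_two]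
    have : γ.1 0 0 * R 0 1 + γ.1 0 1 * R 1 1 =
        (γ 0 0 - x₀) * R 0 1 + (γ 0 1 - y₀) * R 1 1 + (x₀ * R 0 1 + y₀ * R 1 1) := by ring
    rw [this]
    exact dvd_add (dvd_add (hx.mul_right _) (hy.mul_right _)) h1

/-- **Row 1**: `γ ∈ Γ₀(N)` with the second row of `γ * R` divisible by `q`. -/
theorem exists_gamma0_row1 (hq : q.Prime) (hqN : ¬ q ∣ N) (R : Matrix (Fin 2) (Fin 2) ℤ)
    (h : (q : ℤ) ∣ R.det) :
    ∃ γ : SL(2, ℤ), γ ∈ Gamma0 N ∧ (q : ℤ) ∣ (γ.1 * R) 1 0 ∧ (q : ℤ) ∣ (γ.1 * R) 1 1 := by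
  obtain ⟨x₀, y₀, hxy, h0, h1⟩ := exists_null_vector hq R h
  obtain ⟨γ, hγ, hx, hy⟩ := exists_gamma0_row1_congr hq hqN x₀ y₀ hxy
  refine ⟨γ, hγ, ?_, ?_⟩
  · rw [Matrix.mul_apply, Fin.sum_univ_two]
    have : γ.1 1 0 * R 0 0 + γ.1 1 1 * R 1 0 =
        (γ 1 0 - x₀) * R 0 0 + (γ 1 1 - y₀) * R 1 0 + (x₀ * R 0 0 + y₀ * R 1 0) := by ring
    rw [this]
    exact dvd_add (dvd_add (hx.mul_right _) (hy.mul_right _)) h0
  · rw [Matrix.mul_apply, Fin.sum_univ_two]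
    have : γ.1 1 0 * R 0 1 + γ.1 1 1 * R 1 1 =
        (γ 1 0 - x₀) * R 0 1 + (γ 1 1 - y₀) * R 1 1 + (x₀ * R 0 1 + y₀ * R 1 1) := by ring
    rw [this]
    exact dvd_add (dvd_add (hx.mul_right _) (hy.mul_right _)) h1

end Fermat.Agent.S41.IH1.GenDescentCore
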