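/-
S41 / [IH1], generation half, definition-free form.

`Γ₀(N)[1/q] ⊂ SL(2, ℚ)` is generated by `Γ₀(N)` and `η⁻¹ Γ₀(N) η`, `η = diag(q, 1)` (`q ∤ N` prime):
every `g : SL(2, ℚ)` such that `q ^ k • g` is integral with lower-left entry divisible by `N` lies in
every subgroup containing the images of `Γ₀(N)` under the entrywise cast and under
`γ ↦ η⁻¹ γ η = !![a, b / q; q * c, d]`.  Descent on `k` (two steps in the tree of `SL₂(ℚ_q)`, written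
with matrices).
-/
import Mathlib
import Fermat.Agent.S41.IH1.GenDescentCore

set_option autoImplicit false

namespace Fermat.Agent.S41.IH1.GenAbstract

open Matrix MatrixGroups CongruenceSubgroup
open Fermat.Agent.S41.IH1.GenDescentCore

variable {q N : ℕ}

/-- the entrywise cast `SL(2, ℤ) → SL(2, ℚ)` -/
noncomputable abbrev castSL : SL(2, ℤ) →* SL(2, ℚ) := SpecialLinearGroup.map (Int.castRingHom ℚ)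

theorem castSL_apply (γ : SL(2, ℤ)) (i j : Fin 2) : (castSL γ) i j = ((γ i j : ℤ) : ℚ) := rfl

/-- `g' = η⁻¹ γ η` with `η = diag(q, 1)`, entrywise and division-free -/
def IsConjOf (q : ℕ) (γ : SL(2, ℤ)) (g' : SL(2, ℚ)) : Prop :=
  g' 0 0 = ((γ 0 0 : ℤ) : ℚ) ∧ g' 0 1 * (q : ℚ) = ((γ 0 1 : ℤ) : ℚ) ∧
    g' 1 0 = (q : ℚ) * ((γ 1 0 : ℤ) : ℚ) ∧ g' 1 1 = ((γ 1 1 : ℤ) : ℚ)

/-- `q ^ k • g` is integral, with lower-left entry divisible by `N` -/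
def HasLevel (q N k : ℕ) (g : SL(2, ℚ)) : Prop :=
  ∃ M : Matrix (Fin 2) (Fin 2) ℤ, (∀ i j, (q : ℚ) ^ k * g i j = ((M i j : ℤ) : ℚ)) ∧ (N : ℤ) ∣ M 1 0

theorem exists_isConjOf (hq : q.Prime) (γ : SL(2, ℤ)) : ∃ g' : SL(2, ℚ), IsConjOf q γ g' := by
  have hq0 : (q : ℚ) ≠ 0 := by exact_mod_cast hq.ne_zero
  have hγ : (γ 0 0 : ℤ) * γ 1 1 - γ 0 1 * γ 1 0 = 1 := by
    have := γ.det_coe
    rw [Matrix.det_fin_two] at this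
    exact this
  have hγQ : ((γ 0 0 : ℤ) : ℚ) * ((γ 1 1 : ℤ) : ℚ) - ((γ 0 1 : ℤ) : ℚ) * ((γ 1 0 : ℤ) : ℚ) = 1 := by
    exact_mod_cast hγ
  have hdet : (!![((γ 0 0 : ℤ) : ℚ), ((γ 0 1 : ℤ) : ℚ) / q; (q : ℚ) * ((γ 1 0 : ℤ) : ℚ),
      ((γ 1 1 : ℤ) : ℚ)] : Matrix (Fin 2) (Fin 2) ℚ).det = 1 := by
    rw [Matrix.det_fin_two_of]
    field_simp
    linear_combination hγQ
  let g' : SL(2, ℚ) := ⟨_, hdet⟩
  refine ⟨g', ?_, ?_, ?_, ?_⟩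
  · show ((γ 0 0 : ℤ) : ℚ) = _
    rfl
  · show ((γ 0 1 : ℤ) : ℚ) / q * q = _
    field_simp
  · show (q : ℚ) * ((γ 1 0 : ℤ) : ℚ) = _
    rfl
  · show ((γ 1 1 : ℤ) : ℚ) = _
    rfl

theorem dvd_of_mem_Gamma0 {γ : SL(2, ℤ)} (h : γ ∈ Gamma0 N) : (N : ℤ) ∣ γ 1 0 := by
  rw [Gamma0_mem] at h
  exact (ZMod.intCast_zmod_eq_zero_iff_dvd _ _).mp h

theorem mem_Gamma0_of_dvd {γ : SL(2, ℤ)} (h : (N : ℤ) ∣ γ 1 0) : γ ∈ Gamma0 N := by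
  rw [Gamma0_mem]
  exact (ZMod.intCast_zmod_eq_zero_iff_dvd _ _).mpr h

/-- level `0` means: in the image of `Γ₀(N)` -/
theorem exists_of_hasLevel_zero {g : SL(2, ℚ)} (h : HasLevel q N 0 g) :
    ∃ γ : SL(2, ℤ), γ ∈ Gamma0 N ∧ castSL γ = g := by
  obtain ⟨M, hM, hN⟩ := h
  have hM' : ∀ i j, g i j = ((M i j : ℤ) : ℚ) := by
    intro i j
    have := hM i j
    rwa [pow_zero, one_mul] at this
  have hg : g 0 0 * g 1 1 - g 0 1 * g 1 0 = 1 := by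
    have := g.det_coe
    rw [Matrix.det_fin_two] at this
    exact this
  have hdet : M.det = 1 := by
    rw [Matrix.det_fin_two]
    have : ((M 0 0 * M 1 1 - M 0 1 * M 1 0 : ℤ) : ℚ) = 1 := by
      push_cast
      rw [← hM', ← hM', ← hM', ← hM']
      exact hg
    exact_mod_cast this
  let γ : SL(2, ℤ) := ⟨M, hdet⟩
  refine ⟨γ, mem_Gamma0_of_dvd (show (N : ℤ) ∣ M 1 0 from hN), ?_⟩
  apply Subtype.ext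
  ext i j
  show ((M i j : ℤ) : ℚ) = g i j
  exact (hM' i j).symm

/-- the determinant of the integral matrix of a level-`k` element -/
theorem det_of_level {k : ℕ} {g : SL(2, ℚ)} {M : Matrix (Fin 2) (Fin 2) ℤ}
    (hM : ∀ i j, (q : ℚ) ^ k * g i j = ((M i j : ℤ) : ℚ)) : M.det = (q : ℤ) ^ (2 * k) := by
  have hg : g 0 0 * g 1 1 - g 0 1 * g 1 0 = 1 := by
    have := g.det_coe
    rw [Matrix.det_fin_two] at this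
    exact this
  rw [Matrix.det_fin_two]
  have : ((M 0 0 * M 1 1 - M 0 1 * M 1 0 : ℤ) : ℚ) = (((q : ℤ) ^ (2 * k) : ℤ) : ℚ) := by
    push_cast
    rw [← hM, ← hM, ← hM, ← hM]
    have : (q : ℚ) ^ (2 * k) = (q : ℚ) ^ k * (q : ℚ) ^ k := by rw [two_mul, pow_add]
    rw [this]
    linear_combination ((q : ℚ) ^ k * (q : ℚ) ^ k) * hg
  exact_mod_cast this

/-- **The descent step.** -/
theorem exists_descent (hq : q.Prime) (hqN : ¬ q ∣ N) {k : ℕ} {g : SL(2, ℚ)}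
    (h : HasLevel q N (k + 1) g) :
    ∃ γ₁ ∈ Gamma0 N, ∃ γ₂ ∈ Gamma0 N, ∃ g' : SL(2, ℚ), IsConjOf q γ₂ g' ∧
      HasLevel q N k (g' * castSL γ₁ * g) := by
  have hq0 : (q : ℚ) ≠ 0 := by exact_mod_cast hq.ne_zero
  have hqZ : (q : ℤ) ≠ 0 := by exact_mod_cast hq.ne_zero
  obtain ⟨M, hM, hN⟩ := h
  have hdetM : M.det = (q : ℤ) ^ (2 * (k + 1)) := det_of_level hM
  have hqM : (q : ℤ) ∣ M.det := by
    rw [hdetM]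
    exact dvd_pow_self _ (by omega)
  -- first step
  obtain ⟨γ₁, hγ₁, ⟨r₁₀, hr₁₀⟩, ⟨r₁₁, hr₁₁⟩⟩ := exists_gamma0_row1 hq hqN M hqM
  set s₀₀ : ℤ := (γ₁.1 * M) 0 0 with hs₀₀
  set s₀₁ : ℤ := (γ₁.1 * M) 0 1 with hs₀₁
  let R : Matrix (Fin 2) (Fin 2) ℤ := !![s₀₀, s₀₁; r₁₀, r₁₁]
  have hdetγM : (γ₁.1 * M).det = M.det := by
    rw [Matrix.det_mul, γ₁.det_coe, one_mul]
  have hdetR : R.det * q = (q : ℤ) ^ (2 * (k + 1)) := by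
    rw [← hdetM, ← hdetγM, Matrix.det_fin_two (γ₁.1 * M), hr₁₀, hr₁₁, ← hs₀₀, ← hs₀₁]
    show (!![s₀₀, s₀₁; r₁₀, r₁₁] : Matrix (Fin 2) (Fin 2) ℤ).det * q = _
    rw [Matrix.det_fin_two_of]
    ring
  have hdetR' : R.det = (q : ℤ) ^ (2 * k + 1) := by
    have h2 : (q : ℤ) ^ (2 * (k + 1)) = (q : ℤ) ^ (2 * k + 1) * q := by
      rw [← pow_succ]
      congr 1
    rw [h2] at hdetR
    exact mul_right_cancel₀ hqZ hdetR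
  have hqR : (q : ℤ) ∣ R.det := by
    rw [hdetR']
    exact dvd_pow_self _ (by omega)
  -- second step
  obtain ⟨γ₂, hγ₂, ⟨t₀₀, ht₀₀⟩, ⟨t₀₁, ht₀₁⟩⟩ := exists_gamma0_row0 hq hqN R hqR
  obtain ⟨g', hg'⟩ := exists_isConjOf hq γ₂
  refine ⟨γ₁, hγ₁, γ₂, hγ₂, g', hg', ?_⟩
  obtain ⟨h00, h01, h10, h11⟩ := hg'
  -- entries of `γ₁ * M`
  have e00 : s₀₀ = γ₁ 0 0 * M 0 0 + γ₁ 0 1 * M 1 0 := by
    rw [hs₀₀, Matrix.mul_apply, Fin.sum_univ_two]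
  have e01 : s₀₁ = γ₁ 0 0 * M 0 1 + γ₁ 0 1 * M 1 1 := by
    rw [hs₀₁, Matrix.mul_apply, Fin.sum_univ_two]
  have e10 : (q : ℤ) * r₁₀ = γ₁ 1 0 * M 0 0 + γ₁ 1 1 * M 1 0 := by
    rw [← hr₁₀, Matrix.mul_apply, Fin.sum_univ_two]
  have e11 : (q : ℤ) * r₁₁ = γ₁ 1 0 * M 0 1 + γ₁ 1 1 * M 1 1 := by
    rw [← hr₁₁, Matrix.mul_apply, Fin.sum_univ_two]
  -- entries of `γ₂ * R`
  have f00 : (q : ℤ) * t₀₀ = γ₂ 0 0 * s₀₀ + γ₂ 0 1 * r₁₀ := by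
    rw [← ht₀₀, Matrix.mul_apply, Fin.sum_univ_two]
    rfl
  have f01 : (q : ℤ) * t₀₁ = γ₂ 0 0 * s₀₁ + γ₂ 0 1 * r₁₁ := by
    rw [← ht₀₁, Matrix.mul_apply, Fin.sum_univ_two]
    rfl
  -- the new integral matrix
  refine ⟨!![t₀₀, t₀₁; γ₂ 1 0 * s₀₀ + γ₂ 1 1 * r₁₀, γ₂ 1 0 * s₀₁ + γ₂ 1 1 * r₁₁], ?_, ?_⟩
  · -- entries of the product, multiplied by `q ^ (k+1)`
    have key : ∀ i j, (q : ℚ) ^ (k + 1) * (castSL γ₁ * g) i j =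
        ((γ₁ i 0 : ℤ) : ℚ) * ((M 0 j : ℤ) : ℚ) + ((γ₁ i 1 : ℤ) : ℚ) * ((M 1 j : ℤ) : ℚ) := by
      intro i j
      rw [Matrix.SpecialLinearGroup.coe_mul, Matrix.mul_apply, Fin.sum_univ_two, ← hM 0 j, ← hM 1 j,
        castSL_apply, castSL_apply]
      ring
    have key2 : ∀ i j, (q : ℚ) ^ (k + 1) * (g' * castSL γ₁ * g) i j =
        g' i 0 * ((q : ℚ) ^ (k + 1) * (castSL γ₁ * g) 0 j) +
          g' i 1 * ((q : ℚ) ^ (k + 1) * (castSL γ₁ * g) 1 j) := by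
      intro i j
      rw [mul_assoc g', Matrix.SpecialLinearGroup.coe_mul g', Matrix.mul_apply, Fin.sum_univ_two]
      ring
    have e00Q : ((s₀₀ : ℤ) : ℚ) = ((γ₁ 0 0 : ℤ) : ℚ) * ((M 0 0 : ℤ) : ℚ) +
        ((γ₁ 0 1 : ℤ) : ℚ) * ((M 1 0 : ℤ) : ℚ) := by exact_mod_cast e00
    have e01Q : ((s₀₁ : ℤ) : ℚ) = ((γ₁ 0 0 : ℤ) : ℚ) * ((M 0 1 : ℤ) : ℚ) +
        ((γ₁ 0 1 : ℤ) : ℚ) * ((M 1 1 : ℤ) : ℚ) := by exact_mod_cast e01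
    have e10Q : (q : ℚ) * ((r₁₀ : ℤ) : ℚ) = ((γ₁ 1 0 : ℤ) : ℚ) * ((M 0 0 : ℤ) : ℚ) +
        ((γ₁ 1 1 : ℤ) : ℚ) * ((M 1 0 : ℤ) : ℚ) := by exact_mod_cast e10
    have e11Q : (q : ℚ) * ((r₁₁ : ℤ) : ℚ) = ((γ₁ 1 0 : ℤ) : ℚ) * ((M 0 1 : ℤ) : ℚ) +
        ((γ₁ 1 1 : ℤ) : ℚ) * ((M 1 1 : ℤ) : ℚ) := by exact_mod_cast e11
    have f00Q : (q : ℚ) * ((t₀₀ : ℤ) : ℚ) = ((γ₂ 0 0 : ℤ) : ℚ) * ((s₀₀ : ℤ) : ℚ) +
        ((γ₂ 0 1 : ℤ) : ℚ) * ((r₁₀ : ℤ) : ℚ) := by exact_mod_cast f00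
    have f01Q : (q : ℚ) * ((t₀₁ : ℤ) : ℚ) = ((γ₂ 0 0 : ℤ) : ℚ) * ((s₀₁ : ℤ) : ℚ) +
        ((γ₂ 0 1 : ℤ) : ℚ) * ((r₁₁ : ℤ) : ℚ) := by exact_mod_cast f01
    have red : ∀ (i j : Fin 2) (z : ℤ), g' i 0 * ((q : ℚ) ^ (k + 1) * (castSL γ₁ * g) 0 j) +
        g' i 1 * ((q : ℚ) ^ (k + 1) * (castSL γ₁ * g) 1 j) = (q : ℚ) * ((z : ℤ) : ℚ) →
        (q : ℚ) ^ k * (g' * castSL γ₁ * g) i j = ((z : ℤ) : ℚ) := by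
      intro i j z hz
      apply mul_left_cancel₀ hq0
      rw [← mul_assoc, ← pow_succ', key2, hz]
    refine Fin.forall_fin_two.mpr ⟨Fin.forall_fin_two.mpr ⟨?_, ?_⟩, Fin.forall_fin_two.mpr ⟨?_, ?_⟩⟩
    · refine red 0 0 t₀₀ ?_
      rw [key, key, h00, ← e00Q, ← e10Q, f00Q]
      linear_combination ((r₁₀ : ℤ) : ℚ) * h01
    · refine red 0 1 t₀₁ ?_
      rw [key, key, h00, ← e01Q, ← e11Q, f01Q]
      linear_combination ((r₁₁ : ℤ) : ℚ) * h01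
    · refine red 1 0 (γ₂ 1 0 * s₀₀ + γ₂ 1 1 * r₁₀) ?_
      rw [key, key, h10, h11, ← e00Q, ← e10Q]
      push_cast
      ring
    · refine red 1 1 (γ₂ 1 0 * s₀₁ + γ₂ 1 1 * r₁₁) ?_
      rw [key, key, h10, h11, ← e01Q, ← e11Q]
      push_cast
      ring
  · -- divisibility by `N`
    show (N : ℤ) ∣ γ₂ 1 0 * s₀₀ + γ₂ 1 1 * r₁₀
    have hr : (N : ℤ) ∣ r₁₀ := by
      have h1 : (N : ℤ) ∣ (q : ℤ) * r₁₀ := by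
        rw [e10]
        exact dvd_add ((dvd_of_mem_Gamma0 hγ₁).mul_right _) (hN.mul_left _)
      exact (isCoprime_q_N hq hqN).symm.dvd_of_dvd_mul_left h1
    exact dvd_add ((dvd_of_mem_Gamma0 hγ₂).mul_right _) (hr.mul_left _)

/-- **Generation**, definition-free form. -/
theorem mem_of_hasLevel (hq : q.Prime) (hqN : ¬ q ∣ N) (H : Subgroup SL(2, ℚ))
    (h1 : ∀ γ ∈ Gamma0 N, castSL γ ∈ H)
    (h2 : ∀ γ ∈ Gamma0 N, ∀ g' : SL(2, ℚ), IsConjOf q γ g' → g' ∈ H) :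
    ∀ (k : ℕ) (g : SL(2, ℚ)), HasLevel q N k g → g ∈ H := by
  intro k
  induction k with
  | zero =>
    intro g hg
    obtain ⟨γ, hγ, rfl⟩ := exists_of_hasLevel_zero hg
    exact h1 γ hγ
  | succ k ih =>
    intro g hg
    obtain ⟨γ₁, hγ₁, γ₂, hγ₂, g', hg', hlev⟩ := exists_descent hq hqN hg
    have h3 := ih _ hlev
    have h4 : g' * castSL γ₁ ∈ H := H.mul_mem (h2 γ₂ hγ₂ g' hg') (h1 γ₁ hγ₁)
    have : g = (g' * castSL γ₁)⁻¹ * (g' * castSL γ₁ * g) := by group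
    rw [this]
    exact H.mul_mem (H.inv_mem h4) h3

/-- entries in `ℤ[1/q]` (in the inline form `x * q ^ n ∈ ℤ`) and lower-left entry in `N ℤ[1/q]`
give a level -/
theorem exists_hasLevel (g : SL(2, ℚ))
    (hint : ∀ i j, ∃ n : ℕ, ∃ z : ℤ, g i j * (q : ℚ) ^ n = z)
    (hN : ∃ y : ℚ, (∃ n : ℕ, ∃ z : ℤ, y * (q : ℚ) ^ n = z) ∧ g 1 0 = N * y) :
    ∃ k, HasLevel q N k g := by
  obtain ⟨n₀₀, z₀₀, h₀₀⟩ := hint 0 0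
  obtain ⟨n₀₁, z₀₁, h₀₁⟩ := hint 0 1
  obtain ⟨n₁₁, z₁₁, h₁₁⟩ := hint 1 1
  obtain ⟨y, ⟨ny, zy, hy⟩, hgy⟩ := hN
  refine ⟨n₀₀ + n₀₁ + n₁₁ + ny,
    !![z₀₀ * (q : ℤ) ^ (n₀₁ + n₁₁ + ny), z₀₁ * (q : ℤ) ^ (n₀₀ + n₁₁ + ny);
      N * (zy * (q : ℤ) ^ (n₀₀ + n₀₁ + n₁₁)), z₁₁ * (q : ℤ) ^ (n₀₀ + n₀₁ + ny)], ?_, ?_⟩
  · refine Fin.forall_fin_two.mpr ⟨Fin.forall_fin_two.mpr ⟨?_, ?_⟩, Fin.forall_fin_two.mpr ⟨?_, ?_⟩⟩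
    · show (q : ℚ) ^ (n₀₀ + n₀₁ + n₁₁ + ny) * g 0 0 = ((z₀₀ * (q : ℤ) ^ (n₀₁ + n₁₁ + ny) : ℤ) : ℚ)
      push_cast
      rw [← h₀₀]
      ring
    · show (q : ℚ) ^ (n₀₀ + n₀₁ + n₁₁ + ny) * g 0 1 = ((z₀₁ * (q : ℤ) ^ (n₀₀ + n₁₁ + ny) : ℤ) : ℚ)
      push_cast
      rw [← h₀₁]
      ring
    · show (q : ℚ) ^ (n₀₀ + n₀₁ + n₁₁ + ny) * g 1 0 =
        ((N * (zy * (q : ℤ) ^ (n₀₀ + n₀₁ + n₁₁)) : ℤ) : ℚ)
      push_cast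
      rw [← hy, hgy]
      ring
    · show (q : ℚ) ^ (n₀₀ + n₀₁ + n₁₁ + ny) * g 1 1 = ((z₁₁ * (q : ℤ) ^ (n₀₀ + n₀₁ + ny) : ℤ) : ℚ)
      push_cast
      rw [← h₁₁]
      ring
  · show (N : ℤ) ∣ N * (zy * (q : ℤ) ^ (n₀₀ + n₀₁ + n₁₁))
    exact dvd_mul_right _ _

/-- **Generation**, closure form: `Γ₀(N)[1/q]` is generated by `Γ₀(N)` and `η⁻¹ Γ₀(N) η`. -/
theorem mem_closure (hq : q.Prime) (hqN : ¬ q ∣ N) (g : SL(2, ℚ))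
    (hint : ∀ i j, ∃ n : ℕ, ∃ z : ℤ, g i j * (q : ℚ) ^ n = z)
    (hN : ∃ y : ℚ, (∃ n : ℕ, ∃ z : ℤ, y * (q : ℚ) ^ n = z) ∧ g 1 0 = N * y) :
    g ∈ Subgroup.closure ({g | ∃ γ ∈ Gamma0 N, castSL γ = g} ∪
      {g' | ∃ γ ∈ Gamma0 N, IsConjOf q γ g'}) := by
  obtain ⟨k, hk⟩ := exists_hasLevel g hint hN
  refine mem_of_hasLevel hq hqN _ ?_ ?_ k g hk
  · intro γ hγ
    exact Subgroup.subset_closure (Or.inl ⟨γ, hγ, rfl⟩)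
  · intro γ hγ g' hg'
    exact Subgroup.subset_closure (Or.inr ⟨γ, hγ, hg'⟩)

/-- conversely the generators have a level (so the closure is exactly `Γ₀(N)[1/q]`) -/
theorem hasLevel_castSL {γ : SL(2, ℤ)} (hγ : γ ∈ Gamma0 N) : HasLevel q N 0 (castSL γ) :=
  ⟨γ.1, fun i j => by rw [pow_zero, one_mul]; rfl, dvd_of_mem_Gamma0 hγ⟩

theorem hasLevel_of_isConjOf (hq : q.Prime) {γ : SL(2, ℤ)} (hγ : γ ∈ Gamma0 N) {g' : SL(2, ℚ)}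
    (h : IsConjOf q γ g') : HasLevel q N 1 g' := by
  have hq0 : (q : ℚ) ≠ 0 := by exact_mod_cast hq.ne_zero
  obtain ⟨h00, h01, h10, h11⟩ := h
  obtain ⟨c, hc⟩ := dvd_of_mem_Gamma0 hγ
  refine ⟨!![(q : ℤ) * γ 0 0, γ 0 1; N * ((q : ℤ) * (q : ℤ) * c), (q : ℤ) * γ 1 1], ?_, ?_⟩
  · refine Fin.forall_fin_two.mpr ⟨Fin.forall_fin_two.mpr ⟨?_, ?_⟩, Fin.forall_fin_two.mpr ⟨?_, ?_⟩⟩
    · show (q : ℚ) ^ 1 * g' 0 0 = (((q : ℤ) * γ 0 0 : ℤ) : ℚ)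
      rw [h00]
      push_cast
      ring
    · show (q : ℚ) ^ 1 * g' 0 1 = ((γ 0 1 : ℤ) : ℚ)
      rw [← h01]
      ring
    · show (q : ℚ) ^ 1 * g' 1 0 = ((N * ((q : ℤ) * (q : ℤ) * c) : ℤ) : ℚ)
      rw [h10, hc]
      push_cast
      ring
    · show (q : ℚ) ^ 1 * g' 1 1 = (((q : ℤ) * γ 1 1 : ℤ) : ℚ)
      rw [h11]
      push_cast
      ring
  · show (N : ℤ) ∣ N * ((q : ℤ) * (q : ℤ) * c)
    exact dvd_mul_right _ _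

end Fermat.Agent.S41.IH1.GenAbstract
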